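import Fermat.Agent.DS.ChebDens.Statements
import Fermat.Agent.Cheb.Cross.CycloGalois

/-!
# III/CHEB-DENS, leaf (W1): reduction to the totally complex case (helper29)

`frobSumGeNF_of_TC : FrobSumGeTC → FrobSumGeNF`.  (Auxiliary declarations live in the
sub-namespace `Fermat.Agent.DS.ChebDens.AdjoinI`.)

Given `L / ℚ` Galois and `B ⊆ Gal(L/ℚ)`: put `L₂ := L(i)` (`CyclotomicField 4 L`), Galois over `ℚ`
and totally complex; `r : Gal(L₂/ℚ) → Gal(L/ℚ)` the (surjective) restriction, `B₂ := r ⁻¹' B`.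
Then `|B₂|/|Gal(L₂/ℚ)| = |B|/|Gal(L/ℚ)|`, and an arithmetic Frobenius `σ₂ ∈ B₂` at a prime
`Q₂ ∋ p` of `L₂` restricts to the arithmetic Frobenius `r σ₂ ∈ B` at `Q₂ ∩ 𝓞 L ∋ p`.
-/

set_option autoImplicit false
set_option linter.unusedSectionVars false
set_option linter.style.haveILetI false

open scoped NumberField

noncomputable section

namespace Fermat.Agent.DS.ChebDens

namespace AdjoinI

section Count

variable {G H : Type*} [Group G] [Group H]

/-- the preimage of `B` under a surjective homomorphism is `B × ker` -/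
def preimageEquivProdKer (r : G →* H) (hr : Function.Surjective r) (B : Set H) :
    (r ⁻¹' B) ≃ B × r.ker where
  toFun g := (⟨r g, g.2⟩, ⟨(Function.surjInv hr (r g))⁻¹ * g, by
    rw [MonoidHom.mem_ker, map_mul, map_inv, Function.surjInv_eq hr, inv_mul_cancel]⟩)
  invFun x := ⟨Function.surjInv hr x.1 * x.2, by
    show r (_ * _) ∈ B
    rw [map_mul, Function.surjInv_eq hr, (MonoidHom.mem_ker).mp x.2.2, mul_one]
    exact x.1.2⟩
  left_inv g := by
    apply Subtype.ext
    simp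
  right_inv x := by
    obtain ⟨⟨b, hb⟩, ⟨n, hn⟩⟩ := x
    have hn' : r n = 1 := (MonoidHom.mem_ker).mp hn
    have h1 : r (Function.surjInv hr b * n) = b := by
      rw [map_mul, Function.surjInv_eq hr, hn', mul_one]
    apply Prod.ext
    · apply Subtype.ext
      exact h1
    · apply Subtype.ext
      show (Function.surjInv hr (r (Function.surjInv hr b * n)))⁻¹ * (Function.surjInv hr b * n) = n
      rw [h1, inv_mul_cancel_left]

theorem card_preimage_eq_mul_card_ker (r : G →* H) (hr : Function.Surjective r) (B : Set H) :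
    Nat.card (r ⁻¹' B) = Nat.card B * Nat.card r.ker := by
  rw [Nat.card_congr (preimageEquivProdKer r hr B), Nat.card_prod]

theorem card_eq_mul_card_ker (r : G →* H) (hr : Function.Surjective r) :
    Nat.card G = Nat.card H * Nat.card r.ker := by
  have h := card_preimage_eq_mul_card_ker r hr Set.univ
  rw [Set.preimage_univ, Nat.card_congr (Equiv.Set.univ G), Nat.card_congr (Equiv.Set.univ H)] at h
  exact h

/-- the proportion of a preimage under a surjective homomorphism of finite groups -/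
theorem card_preimage_div_card [Finite G] (r : G →* H) (hr : Function.Surjective r) (B : Set H) :
    (Nat.card (r ⁻¹' B) : ℝ) / Nat.card G = (Nat.card B : ℝ) / Nat.card H := by
  haveI : Finite H := Finite.of_surjective r hr
  rw [card_preimage_eq_mul_card_ker r hr B, card_eq_mul_card_ker r hr]
  have hk : (Nat.card r.ker : ℝ) ≠ 0 := by exact_mod_cast Nat.card_pos.ne'
  have hH : (Nat.card H : ℝ) ≠ 0 := by exact_mod_cast Nat.card_pos.ne'
  push_cast
  field_simp

end Count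

section Restrict

variable {L L' : Type*} [Field L] [Field L'] [NumberField L] [NumberField L'] [Algebra L L']
  [IsGalois ℚ L] [IsGalois ℚ L']

/-- The restriction to `L` of an arithmetic Frobenius (over `ℤ`) at `Q'` is an arithmetic
Frobenius at `Q' ∩ 𝓞 L`. -/
theorem isArithFrobAt_int_under (ρ : L' ≃ₐ[ℚ] L') (g : L ≃ₐ[ℚ] L)
    (hg : ∀ x : L, ρ (algebraMap L L' x) = algebraMap L L' (g x)) (Q' : Ideal (𝓞 L'))
    (h : IsArithFrobAt ℤ ρ Q') : IsArithFrobAt ℤ g (Q'.under (𝓞 L)) := by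
  intro x
  have hunder : (Q'.under (𝓞 L)).under ℤ = Q'.under ℤ := Ideal.under_under _
  rw [hunder, Ideal.under_def, Ideal.mem_comap, map_sub, map_pow]
  have h1 := h (algebraMap (𝓞 L) (𝓞 L') x)
  have e : algebraMap (𝓞 L) (𝓞 L') ((MulSemiringAction.toAlgHom ℤ (𝓞 L) g) x) =
      (MulSemiringAction.toAlgHom ℤ (𝓞 L') ρ) (algebraMap (𝓞 L) (𝓞 L') x) := by
    apply NumberField.RingOfIntegers.ext
    change algebraMap L L' (g x) = ρ (algebraMap L L' x)
    exact (hg x).symm
  rw [e]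
  exact h1

end Restrict

/-- the reduction for a given quadratic-cyclotomic extension `L₂ = L(i)` -/
theorem exists_frob_sum_of_TC (hTC : FrobSumGeTC) (L : Type) [Field L] [NumberField L]
    [IsGalois ℚ L] (L₂ : Type) [Field L₂] [NumberField L₂] [Algebra L L₂]
    [IsCyclotomicExtension {4} L L₂] (B : Set (L ≃ₐ[ℚ] L)) (δ : ℝ) (hδ : 0 < δ) (T : Finset ℕ) :
    ∃ K₀ : ℝ, ∀ s : ℝ, 1 < s → s ≤ 2 → ∃ F : Finset ℕ,
      (∀ p ∈ F, p.Prime ∧ p ∉ T ∧ ∃ Q : Ideal (𝓞 L), Q.IsPrime ∧ (p : 𝓞 L) ∈ Q ∧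
        ∃ σ ∈ B, IsArithFrobAt ℤ σ Q) ∧
      ((Nat.card B : ℝ) / Nat.card (L ≃ₐ[ℚ] L) - δ) * Real.log (1 / (s - 1)) - K₀ ≤
        ∑ p ∈ F, 1 / (p : ℝ) ^ s := by
  haveI : IsScalarTower ℚ L L₂ := inferInstance
  haveI : FiniteDimensional ℚ L₂ :=
    Fermat.Agent.Cheb.Cross.finiteDimensional_of_isCyclotomicExtension ℚ L L₂ 4
  haveI : IsGalois ℚ L₂ := Fermat.Agent.Cheb.Cross.isGalois_of_isCyclotomicExtension ℚ L L₂ 4
  haveI : NumberField.IsTotallyComplex L₂ := by
    rw [← NumberField.nrRealPlaces_eq_zero_iff]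
    exact NumberField.InfinitePlace.IsPrimitiveRoot.nrRealPlaces_eq_zero_of_two_lt (by norm_num)
      (IsCyclotomicExtension.zeta_spec 4 L L₂)
  -- the restriction homomorphism
  set r : (L₂ ≃ₐ[ℚ] L₂) →* (L ≃ₐ[ℚ] L) := AlgEquiv.restrictNormalHom L with hr
  have hrsurj : Function.Surjective r := AlgEquiv.restrictNormalHom_surjective L₂
  have hres : ∀ (σ₂ : L₂ ≃ₐ[ℚ] L₂) (x : L), σ₂ (algebraMap L L₂ x) = algebraMap L L₂ (r σ₂ x) :=
    fun σ₂ x => (AlgEquiv.restrictNormal_commutes σ₂ L x).symm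
  obtain ⟨K₀, hK₀⟩ := hTC L₂ (r ⁻¹' B) δ hδ T
  refine ⟨K₀, fun s hs1 hs2 => ?_⟩
  obtain ⟨F, hF, hsum⟩ := hK₀ s hs1 hs2
  refine ⟨F, fun p hp => ?_, ?_⟩
  · obtain ⟨hpp, hpT, Q₂, hQ₂, hpQ₂, σ₂, hσ₂, hfrob⟩ := hF p hp
    haveI := hQ₂
    refine ⟨hpp, hpT, Q₂.under (𝓞 L), inferInstance, ?_, r σ₂, hσ₂, ?_⟩
    · rw [Ideal.under_def, Ideal.mem_comap, map_natCast]
      exact hpQ₂
    · exact isArithFrobAt_int_under σ₂ (r σ₂) (hres σ₂) Q₂ hfrob
  · rw [card_preimage_div_card r hrsurj B] at hsum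
    exact hsum

end AdjoinI

/-- **(W1)** the one-sided density Chebotarev for Galois number fields follows from the totally
complex case. -/
theorem frobSumGeNF_of_TC (h : FrobSumGeTC) : FrobSumGeNF := by
  intro L _ _ _ B δ hδ T
  haveI : IsCyclotomicExtension {4} L (CyclotomicField 4 L) :=
    CyclotomicField.isCyclotomicExtension 4 L
  haveI : NumberField (CyclotomicField 4 L) :=
    IsCyclotomicExtension.numberField {4} L (CyclotomicField 4 L)
  exact AdjoinI.exists_frob_sum_of_TC h L (CyclotomicField 4 L) B δ hδ T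

end Fermat.Agent.DS.ChebDens
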