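/-
PROGRAMME III (S48), kernel CHEB-DENS, leaf (C2) (helper15): the class density theorem for the norm
residue map with values in a SUBGROUP `⟨u⟩ ≤ (ZMod l)ˣ`.

`M ⊆ L'` number fields, `L'/M` Galois, `M` totally complex, `l` prime, `ζ ∈ L'` a primitive `l`-th root
of unity.  Hypothesis `hcyc`: every element of `Gal(L'/M)` acts on `ζ` as `ζ ↦ ζ ^ (a ^ k)` (`a` a
natural number representing `u`).  Hypothesis `hgen`: some nonzero ideal prime to `l` has norm residue a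
generator of `⟨u⟩`.  Then the degree-one primes `v` of `M`, prime to `l`, with `N v ≡ u mod l` have
logarithmic density `1 / orderOf u` (main's `Cheb.hasLogDensity_class_degreeOne` for the corestricted
norm residue map).
-/
import Fermat.Agent.Cheb.Cross.CyclicExactTC

set_option autoImplicit false
set_option linter.unusedSectionVars false
set_option linter.style.haveILetI false

open NumberField IsDedekindDomain

namespace Fermat.Agent.DS.ChebDens

open Fermat.Agent.Cheb Fermat.Agent.Cheb.Cross Fermat.Agent.Cheb.Dens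

section

variable {M L' : Type*} [Field M] [Field L'] [NumberField M] [NumberField L'] [Algebra M L']
  [IsGalois M L'] {l : ℕ} [Fact l.Prime] {ζ : L'} (hζ : IsPrimitiveRoot ζ l)
  (u : (ZMod l)ˣ) (a : ℕ) (hau : ((u : (ZMod l)ˣ) : ZMod l) = (a : ZMod l))
  (hcyc : ∀ τ : L' ≃ₐ[M] L', ∃ k : ℕ, τ ζ = ζ ^ (a ^ k))

include hζ hau hcyc in
/-- the norm residue of a nonzero prime of `M` prime to `l` lies in `⟨u⟩`. -/
theorem normRes_prime_mem_zpowers (𝔭 : Ideal (𝓞 M)) [h𝔭 : 𝔭.IsPrime] (h0 : 𝔭 ≠ ⊥)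
    (hcop : IsCoprime 𝔭 (Ideal.span {(l : 𝓞 M)})) :
    normRes M l 𝔭 ∈ Subgroup.zpowers u := by
  set Q' : Ideal (𝓞 L') := S14.primeOver M L' 𝔭 with hQ'
  have hτ : IsArithFrobAt (𝓞 M) (S14.frob M L' 𝔭) Q' := S14.frob_spec M L' 𝔭 h0
  set τ : L' ≃ₐ[M] L' := S14.frob M L' 𝔭 with hτdef
  have hcard : Nat.card (𝓞 M ⧸ Q'.under (𝓞 M)) = Ideal.absNorm 𝔭 := by
    rw [← Ideal.over_def Q' 𝔭, Ideal.absNorm_apply, Submodule.cardQuot_apply]
  have hlQ' : (l : 𝓞 L') ∉ Q' := by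
    intro h
    have h1 : (l : 𝓞 M) ∈ 𝔭 := by
      rw [Ideal.over_def Q' 𝔭, Ideal.under_def, Ideal.mem_comap, map_natCast]
      exact h
    rw [Ideal.isCoprime_iff_sup_eq] at hcop
    have h2 : 𝔭 ⊔ Ideal.span {(l : 𝓞 M)} ≤ 𝔭 :=
      sup_le le_rfl ((Ideal.span_singleton_le_iff_mem _).mpr h1)
    rw [hcop, top_le_iff] at h2
    exact h𝔭.ne_top h2
  have hτζ : τ ζ = ζ ^ Ideal.absNorm 𝔭 := by
    have := apply_zeta_of_isArithFrobAt hτ hζ hlQ'
    rwa [hcard] at this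
  obtain ⟨k, hk⟩ := hcyc τ
  rw [hτζ, zeta_pow_eq_iff hζ, Nat.cast_pow] at hk
  rw [Subgroup.mem_zpowers_iff]
  refine ⟨(k : ℤ), ?_⟩
  apply Units.ext
  rw [zpow_natCast, Units.val_pow_eq_pow_val, hau, coe_normRes_of_isCoprime hcop, hk]

include hζ hau hcyc in
/-- the norm residue of every nonzero ideal of `M` prime to `l` lies in `⟨u⟩`. -/
theorem normRes_mem_zpowers (I : Ideal (𝓞 M)) (hI0 : I ≠ ⊥)
    (hI : IsCoprime I (Ideal.span {(l : 𝓞 M)})) : normRes M l I ∈ Subgroup.zpowers u := by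
  revert hI0 hI
  refine UniqueFactorizationMonoid.induction_on_prime (P := fun I : Ideal (𝓞 M) => I ≠ ⊥ →
    IsCoprime I (Ideal.span {(l : 𝓞 M)}) → normRes M l I ∈ Subgroup.zpowers u) I ?_ ?_ ?_
  · intro h
    exact absurd rfl h
  · intro J hJ _ _
    rw [Ideal.isUnit_iff] at hJ
    rw [hJ, normRes_top]
    exact Subgroup.one_mem _
  · intro J 𝔭 hJ0 h𝔭 ih _ hcop
    have hJ0' : J ≠ ⊥ := hJ0
    have h𝔭0 : 𝔭 ≠ ⊥ := h𝔭.ne_zero
    haveI : 𝔭.IsPrime := Ideal.isPrime_of_prime h𝔭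
    have hcop𝔭 : IsCoprime 𝔭 (Ideal.span {(l : 𝓞 M)}) := hcop.of_mul_left_left
    have hcopJ : IsCoprime J (Ideal.span {(l : 𝓞 M)}) := hcop.of_mul_left_right
    rw [normRes_mul 𝔭 J h𝔭0 hJ0' hcop𝔭 hcopJ]
    exact Subgroup.mul_mem _ (normRes_prime_mem_zpowers hζ u a hau hcyc 𝔭 h𝔭0 hcop𝔭)
      (ih hJ0' hcopJ)

open Classical in
/-- the norm residue map, corestricted to `⟨u⟩`. -/
noncomputable def normResSub (I : Ideal (𝓞 M)) : Subgroup.zpowers u :=
  if h : normRes M l I ∈ Subgroup.zpowers u then ⟨normRes M l I, h⟩ else 1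

theorem normResSub_of_mem {I : Ideal (𝓞 M)} (h : normRes M l I ∈ Subgroup.zpowers u) :
    normResSub u I = ⟨normRes M l I, h⟩ := by
  unfold normResSub
  rw [dif_pos h]

theorem normResSub_eq_one_of_normRes_eq_one {I : Ideal (𝓞 M)} (h : normRes M l I = 1) :
    normResSub u I = 1 := by
  have hmem : normRes M l I ∈ Subgroup.zpowers u := h ▸ Subgroup.one_mem _
  rw [normResSub_of_mem u hmem]
  exact Subtype.ext h

include hζ hau hcyc in
/-- **The class density theorem for `⟨u⟩`**: the degree-one primes of `M`, prime to `l`, with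
`N v ≡ u mod l` have logarithmic density `1 / orderOf u`. -/
theorem hasLogDensity_normRes_eq [NumberField.IsTotallyComplex M]
    (hgen : ∃ P : Ideal (𝓞 M), P ≠ ⊥ ∧ IsCoprime P (Ideal.span {(l : 𝓞 M)}) ∧
      Subgroup.zpowers (normRes M l P) = Subgroup.zpowers u) :
    HasLogDensity (primeTerm M)
      ({v : HeightOneSpectrum (𝓞 M) | IsCoprime v.asIdeal (Ideal.span {(l : 𝓞 M)}) ∧
          normRes M l v.asIdeal = u} ∩ {v | DegOne.IsDegreeOne M v})
      (1 / (orderOf u : ℝ)) := by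
  have hmem := normRes_mem_zpowers hζ u a hau hcyc
  -- the hypotheses of the class density theorem for `normResSub u`
  have hc1 : normResSub (M := M) u (⊤ : Ideal (𝓞 M)) = 1 :=
    normResSub_eq_one_of_normRes_eq_one u normRes_top
  have hcmul : ∀ I J : Ideal (𝓞 M), I ≠ ⊥ → J ≠ ⊥ → IsCoprime I (Ideal.span {(l : 𝓞 M)}) →
      IsCoprime J (Ideal.span {(l : 𝓞 M)}) →
      normResSub u (I * J) = normResSub u I * normResSub u J := by
    intro I J hI0 hJ0 hI hJ
    have hIJ0 : I * J ≠ ⊥ := mul_ne_zero hI0 hJ0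
    rw [normResSub_of_mem u (hmem I hI0 hI), normResSub_of_mem u (hmem J hJ0 hJ),
      normResSub_of_mem u (hmem (I * J) hIJ0 (hI.mul_left hJ))]
    exact Subtype.ext (normRes_mul I J hI0 hJ0 hI hJ)
  have hcP : ∀ α : 𝓞 M, α ≠ 0 → α - 1 ∈ Ideal.span {(l : 𝓞 M)} →
      normResSub u (Ideal.span {α}) = 1 := fun α hα h =>
    normResSub_eq_one_of_normRes_eq_one u (normRes_span_singleton α hα h)
  have hcN : ∀ w : HeightOneSpectrum (𝓞 L'),
      IsCoprime (w.under (𝓞 M)).asIdeal (Ideal.span {(l : 𝓞 M)}) →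
      normResSub u (Ideal.relNorm (𝓞 M) w.asIdeal) = 1 := fun w hw =>
    normResSub_eq_one_of_normRes_eq_one u (normRes_relNorm hζ.toInteger_isPrimitiveRoot w hw)
  have hsurj : ∀ b : Subgroup.zpowers u, ∃ I : Ideal (𝓞 M), I ≠ ⊥ ∧
      IsCoprime I (Ideal.span {(l : 𝓞 M)}) ∧ normResSub u I = b := by
    obtain ⟨P, hP0, hP, hPgen⟩ := hgen
    intro b
    have hb : (b : (ZMod l)ˣ) ∈ Subgroup.zpowers (normRes M l P) := by
      rw [hPgen]; exact b.2
    rw [← mem_powers_iff_mem_zpowers, Submonoid.mem_powers_iff] at hb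
    obtain ⟨k, hk⟩ := hb
    refine ⟨P ^ k, pow_ne_zero k hP0, hP.pow_left, ?_⟩
    rw [normResSub_of_mem u (hmem (P ^ k) (pow_ne_zero k hP0) hP.pow_left)]
    apply Subtype.ext
    show normRes M l (P ^ k) = (b : (ZMod l)ˣ)
    rw [normRes_pow P hP0 hP k]
    exact hk
  have hmain := hasLogDensity_class_degreeOne (normResSub (M := M) u) hc1 hcmul hcP hsurj
    (L := L') hcN span_natCast_ne_bot ⟨u, Subgroup.mem_zpowers u⟩
  have hcard : Nat.card (Subgroup.zpowers u) = orderOf u := Nat.card_zpowers u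
  rw [hcard] at hmain
  have hset : ({v : HeightOneSpectrum (𝓞 M) | IsCoprime v.asIdeal (Ideal.span {(l : 𝓞 M)}) ∧
          normRes M l v.asIdeal = u} ∩ {v | DegOne.IsDegreeOne M v}) =
      ({v : HeightOneSpectrum (𝓞 M) | IsCoprime v.asIdeal (Ideal.span {(l : 𝓞 M)}) ∧
          normResSub u v.asIdeal = ⟨u, Subgroup.mem_zpowers u⟩} ∩
        {v | DegOne.IsDegreeOne M v}) := by
    ext v
    simp only [Set.mem_inter_iff, Set.mem_ofPred_eq]
    constructor
    · rintro ⟨⟨hcop, hv⟩, hdeg⟩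
      refine ⟨⟨hcop, ?_⟩, hdeg⟩
      rw [normResSub_of_mem u (hmem v.asIdeal v.ne_bot hcop)]
      exact Subtype.ext hv
    · rintro ⟨⟨hcop, hv⟩, hdeg⟩
      refine ⟨⟨hcop, ?_⟩, hdeg⟩
      rw [normResSub_of_mem u (hmem v.asIdeal v.ne_bot hcop)] at hv
      exact congrArg Subtype.val hv
  rw [hset]
  exact hmain

end

end Fermat.Agent.DS.ChebDens
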