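import Mathlib

/-!
# Programme III, kernel CHEB-DENS, leaf (COMB): regrouping a weighted sum according to the prime

Pure combinatorics (finding #1987, literal of helper15): finitely many finite sets `W i` of pairs
`(p, x)`, multiplicities `c i`, and for every `p` the weighted number of pairs with first component
`p` is at most `G`.  Then `∑ i, c i * ∑ w ∈ W i, 1 / w.1 ^ s ≤ G * ∑ p ∈ F, 1 / p ^ s`.
-/

set_option autoImplicit false

namespace Fermat.Agent.DS.ChebDens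

/-- General weight form of `sum_weighted_le`: any nonnegative weight `t` on `ℕ`. -/
theorem sum_weighted_le_of_nonneg {ι X : Type*} (I : Finset ι) (W : ι → Finset (ℕ × X)) (c : ι → ℕ)
    (G : ℕ)
    (hcount : ∀ p : ℕ, ∑ i ∈ I, c i * ((W i).filter (fun w => w.1 = p)).card ≤ G)
    (t : ℕ → ℝ) (ht : ∀ p, 0 ≤ t p) (F : Finset ℕ) (hF : ∀ i ∈ I, ∀ w ∈ W i, w.1 ∈ F) :
    ∑ i ∈ I, (c i : ℝ) * ∑ w ∈ W i, t w.1 ≤ (G : ℝ) * ∑ p ∈ F, t p := by
  classical
  -- group each inner sum according to the first component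
  have h1 : ∀ i ∈ I, (c i : ℝ) * ∑ w ∈ W i, t w.1 =
      ∑ p ∈ F, ((c i * ((W i).filter (fun w => w.1 = p)).card : ℕ) : ℝ) * t p := by
    intro i hi
    rw [← Finset.sum_fiberwise_of_maps_to (hF i hi), Finset.mul_sum]
    refine Finset.sum_congr rfl fun p _ => ?_
    have h2 : ∑ w ∈ W i with w.1 = p, t w.1 =
        (((W i).filter (fun w => w.1 = p)).card : ℝ) * t p := by
      rw [Finset.sum_congr rfl (fun w hw => by rw [(Finset.mem_filter.mp hw).2] :
        ∀ w ∈ (W i).filter (fun w => w.1 = p), t w.1 = t p), Finset.sum_const, nsmul_eq_mul]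
    rw [h2, Nat.cast_mul, mul_assoc]
  rw [Finset.sum_congr rfl h1, Finset.sum_comm, Finset.mul_sum]
  refine Finset.sum_le_sum fun p _ => ?_
  rw [← Finset.sum_mul]
  refine mul_le_mul_of_nonneg_right ?_ (ht p)
  have := hcount p
  exact_mod_cast this

/-- **Leaf (COMB)** of CHEB-DENS (literal of finding #1987). -/
theorem sum_weighted_le {ι X : Type*} (I : Finset ι) (W : ι → Finset (ℕ × X)) (c : ι → ℕ) (G : ℕ)
    (hcount : ∀ p : ℕ, ∑ i ∈ I, c i * ((W i).filter (fun w => w.1 = p)).card ≤ G)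
    (s : ℝ) (F : Finset ℕ) (hF : ∀ i ∈ I, ∀ w ∈ W i, w.1 ∈ F) :
    ∑ i ∈ I, (c i : ℝ) * ∑ w ∈ W i, 1 / (w.1 : ℝ) ^ s ≤ (G : ℝ) * ∑ p ∈ F, 1 / (p : ℝ) ^ s :=
  sum_weighted_le_of_nonneg I W c G hcount (fun p => 1 / (p : ℝ) ^ s)
    (fun p => one_div_nonneg.mpr (Real.rpow_nonneg (Nat.cast_nonneg p) s)) F hF

end Fermat.Agent.DS.ChebDens
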