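import Fermat.Agent.DS.ChebDens.SumFrob

/-!
# Programme III, kernel CHEB-DENS: the hypothesis `hcount` of (COMB) from Frobenius data

In the vocabulary of leaf (PER) of finding #1987: `E / ℚ` Galois, finitely many pairwise distinct
`ρ i ∈ Gal(E/ℚ)`, and for each `i` a finite set `W i` of pairs `(p, Q)` with `p` a rational prime not
dividing `disc E`, `Q ∋ p` a prime of `E` and `ρ i` an arithmetic Frobenius at `Q`.  Then for every
`p` the weighted count `∑ i, orderOf (ρ i) * #{w ∈ W i | w.1 = p}` is at most `#Gal(E/ℚ)`: this is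
exactly the hypothesis `hcount` of `Fermat.Agent.DS.ChebDens.sum_weighted_le` with
`c i := orderOf (ρ i)` and `G := #Gal(E/ℚ)`.
-/

set_option autoImplicit false

open scoped NumberField

namespace Fermat.Agent.DS.ChebDens.SumFrob

variable {E : Type*} [Field E] [NumberField E] [IsGalois ℚ E]

/-- **`hcount` for (COMB).** -/
theorem sum_orderOf_mul_card_filter_le {ι : Type*} (I : Finset ι) (ρ : ι → (E ≃ₐ[ℚ] E))
    (hρ : Set.InjOn ρ I) (W : ι → Finset (ℕ × Ideal (𝓞 E)))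
    (hW : ∀ i ∈ I, ∀ w ∈ W i, w.1.Prime ∧ ¬ ((w.1 : ℕ) : ℤ) ∣ NumberField.discr E ∧
      w.2.IsPrime ∧ ((w.1 : ℕ) : 𝓞 E) ∈ w.2 ∧ IsArithFrobAt ℤ (ρ i) w.2) (p : ℕ) :
    ∑ i ∈ I, orderOf (ρ i) * ((W i).filter (fun w => w.1 = p)).card ≤
      Nat.card (E ≃ₐ[ℚ] E) := by
  classical
  set J : Finset (Σ _ : ι, ℕ × Ideal (𝓞 E)) :=
    I.sigma (fun i => (W i).filter (fun w => w.1 = p)) with hJ
  have hmem : ∀ x ∈ J, x.1 ∈ I ∧ x.2 ∈ W x.1 ∧ x.2.1 = p := by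
    intro x hx
    have h1 := Finset.mem_sigma.mp hx
    have h2 := Finset.mem_filter.mp h1.2
    exact ⟨h1.1, h2.1, h2.2⟩
  have hsum : ∑ i ∈ I, orderOf (ρ i) * ((W i).filter (fun w => w.1 = p)).card =
      ∑ x ∈ J, orderOf (ρ x.1) := by
    rw [hJ, Finset.sum_sigma]
    refine Finset.sum_congr rfl fun i _ => ?_
    symm
    change ∑ _s ∈ (W i).filter (fun w => w.1 = p), orderOf (ρ i) = _
    rw [Finset.sum_const, smul_eq_mul, mul_comm]
  rw [hsum]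
  rcases J.eq_empty_or_nonempty with he | ⟨x₀, hx₀⟩
  · rw [he, Finset.sum_empty]
    exact Nat.zero_le _
  have hp : p.Prime := by
    obtain ⟨h1, h2, h3⟩ := hmem x₀ hx₀
    rw [← h3]
    exact (hW x₀.1 h1 x₀.2 h2).1
  refine sum_orderOf_le_card (E := E) hp J (fun x => ρ x.1) (fun x => x.2.2) ?_ ?_
  · intro x hx
    obtain ⟨h1, h2, h3⟩ := hmem x hx
    obtain ⟨-, -, hQp, hpQ, hfrob⟩ := hW x.1 h1 x.2 h2
    exact ⟨hQp, h3 ▸ hpQ, hfrob⟩
  · intro x hx y hy hxy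
    obtain ⟨hx1, hx2, hx3⟩ := hmem x (Finset.mem_coe.mp hx)
    obtain ⟨hy1, hy2, hy3⟩ := hmem y (Finset.mem_coe.mp hy)
    have hxy' : x.2.2 = y.2.2 := hxy
    obtain ⟨hxp, hxd, hxQ, hxm, hxf⟩ := hW x.1 hx1 x.2 hx2
    obtain ⟨-, -, -, -, hyf⟩ := hW y.1 hy1 y.2 hy2
    have hρeq : ρ x.1 = ρ y.1 := by
      have := hxQ
      exact eq_of_isArithFrobAt_of_not_dvd_discr hxp hxm hxd hxf (hxy' ▸ hyf)
    have h1 : x.1 = y.1 := hρ hx1 hy1 hρeq
    have h2 : x.2 = y.2 := Prod.ext (hx3.trans hy3.symm) hxy'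
    exact Sigma.ext h1 (heq_of_eq h2)

end Fermat.Agent.DS.ChebDens.SumFrob
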