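/-
PROGRAMME III (S48), kernel CHEB-DENS, leaf (C1) (helper15): the fixed field of `ρ` in the cyclotomic
crossing, for a GENERAL residue `a` modulo `l` whose order is divisible by `2 n`.

This is `Cheb/Cross/FixedField` (where `a` is a primitive root modulo `l` and `2 n ∣ l - 1`) with the
single hypothesis `ha : ∀ k, (a : ZMod l) ^ k = 1 → 2 * n ∣ k`.

Tower `K → L → L'`, `ζ ∈ L'` a primitive `l`-th root of unity, `g ∈ Gal(L/K)`, `g ^ n = 1`,
`ρ ∈ Gal(L'/K)` with `ρ|_L = g`, `ρ ζ = ζ ^ a`; an automorphism of `L'/K` fixing `L` and `ζ` is trivial.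

* `pow_eq_one_iff_gen`  : `ρ ^ k = 1 ↔ (a : ZMod l) ^ k = 1`;  `orderOf_eq_gen`;
* `eq_of_mem_zpowers_of_apply_zeta_eq_gen` : the action on `ζ` is injective on `⟨ρ⟩`;
* `isTotallyComplex_fixedField_gen` : if `L` is totally complex, so is the fixed field of `⟨ρ⟩`.
-/
import Fermat.Agent.Cheb.Cross.FixedField

set_option autoImplicit false
set_option linter.unusedSectionVars false

open NumberField

namespace Fermat.Agent.DS.ChebDens

open Fermat.Agent.Cheb.Cross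

section Order

variable {K L L' : Type*} [Field K] [Field L] [Field L'] [Algebra K L] [Algebra L L']
  [Algebra K L'] [IsScalarTower K L L'] {l : ℕ} [Fact l.Prime] {ζ : L'}
  {g : L ≃ₐ[K] L} {n : ℕ} {ρ : L' ≃ₐ[K] L'} {a : ℕ}
  (hζ : IsPrimitiveRoot ζ l) (hgn : g ^ n = 1)
  (hρL : ∀ x : L, ρ (algebraMap L L' x) = algebraMap L L' (g x))
  (hρζ : ρ ζ = ζ ^ a) (ha : ∀ k : ℕ, (a : ZMod l) ^ k = 1 → 2 * n ∣ k)
  (hdet : ∀ τ : L' ≃ₐ[K] L', (∀ x : L, τ (algebraMap L L' x) = algebraMap L L' x) →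
    τ ζ = ζ → τ = 1)

include hζ hgn hρL hρζ ha hdet in
/-- `ρ ^ k = 1 ↔ a ^ k = 1` in `ZMod l`. -/
theorem pow_eq_one_iff_gen (k : ℕ) : ρ ^ k = 1 ↔ (a : ZMod l) ^ k = 1 := by
  constructor
  · intro h
    have h1 : (ρ ^ k) ζ = ζ := by rw [h, AlgEquiv.one_apply]
    rwa [pow_apply_zeta hρζ, zeta_pow_eq_self_iff hζ, Nat.cast_pow] at h1
  · intro h
    refine hdet _ (fun x => ?_) ?_
    · have hnk : n ∣ k := (Dvd.intro_left 2 rfl).trans (ha k h)
      rw [pow_apply_algebraMap hρL, pow_eq_one_of_dvd hgn hnk, AlgEquiv.one_apply]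
    · rw [pow_apply_zeta hρζ, zeta_pow_eq_self_iff hζ, Nat.cast_pow]
      exact h

include hζ hgn hρL hρζ ha hdet in
theorem isOfFinOrder_gen : IsOfFinOrder ρ := by
  have hl : l.Prime := Fact.out
  rw [isOfFinOrder_iff_pow_eq_one]
  refine ⟨l - 1, Nat.sub_pos_of_lt hl.one_lt,
    (pow_eq_one_iff_gen hζ hgn hρL hρζ ha hdet (l - 1)).mpr ?_⟩
  exact ZMod.pow_card_sub_one_eq_one (natCast_ne_zero_of_apply_zeta hζ hρζ)

include hζ hgn hρL hρζ ha hdet in
/-- the order of `ρ` is the order of `a` modulo `l`. -/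
theorem orderOf_eq_gen : orderOf ρ = orderOf (a : ZMod l) := by
  apply Nat.dvd_antisymm
  · rw [orderOf_dvd_iff_pow_eq_one]
    exact (pow_eq_one_iff_gen hζ hgn hρL hρζ ha hdet _).mpr (pow_orderOf_eq_one _)
  · rw [orderOf_dvd_iff_pow_eq_one]
    exact (pow_eq_one_iff_gen hζ hgn hρL hρζ ha hdet _).mp (pow_orderOf_eq_one _)

include hζ hgn hρL hρζ ha hdet in
/-- Every element of `⟨ρ⟩` is a power `ρ ^ k` with `k : ℕ`. -/
theorem exists_pow_eq_of_mem_zpowers_gen {τ : L' ≃ₐ[K] L'} (hτ : τ ∈ Subgroup.zpowers ρ) :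
    ∃ k : ℕ, ρ ^ k = τ := by
  have h := ((isOfFinOrder_gen hζ hgn hρL hρζ ha hdet).mem_powers_iff_mem_zpowers).mpr hτ
  exact Submonoid.mem_powers_iff _ _ |>.mp h

include hζ hgn hρL hρζ ha hdet in
/-- An element of `⟨ρ⟩` fixing `ζ` is trivial. -/
theorem eq_one_of_mem_zpowers_of_apply_zeta_gen {τ : L' ≃ₐ[K] L'}
    (hτ : τ ∈ Subgroup.zpowers ρ) (h : τ ζ = ζ) : τ = 1 := by
  obtain ⟨k, rfl⟩ := exists_pow_eq_of_mem_zpowers_gen hζ hgn hρL hρζ ha hdet hτ
  refine (pow_eq_one_iff_gen hζ hgn hρL hρζ ha hdet k).mpr ?_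
  rwa [pow_apply_zeta hρζ, zeta_pow_eq_self_iff hζ, Nat.cast_pow] at h

include hζ hgn hρL hρζ ha hdet in
/-- **The action on `ζ` is injective on `⟨ρ⟩`.** -/
theorem eq_of_mem_zpowers_of_apply_zeta_eq_gen {τ₁ τ₂ : L' ≃ₐ[K] L'}
    (h₁ : τ₁ ∈ Subgroup.zpowers ρ) (h₂ : τ₂ ∈ Subgroup.zpowers ρ) (h : τ₁ ζ = τ₂ ζ) :
    τ₁ = τ₂ := by
  have h3 : τ₂⁻¹ * τ₁ ∈ Subgroup.zpowers ρ := Subgroup.mul_mem _ (Subgroup.inv_mem _ h₂) h₁
  have h4 : (τ₂⁻¹ * τ₁) ζ = ζ := by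
    rw [AlgEquiv.mul_apply, h]
    exact τ₂.symm_apply_apply ζ
  have h5 := eq_one_of_mem_zpowers_of_apply_zeta_gen hζ hgn hρL hρζ ha hdet h3 h4
  exact (inv_mul_eq_one.mp h5).symm

include hζ hgn hρL hρζ ha hdet in
/-- An element of `⟨ρ⟩` acting on `ζ` as `ζ ↦ ζ ^ q` with `q ≡ a mod l` is `ρ`. -/
theorem eq_rho_of_apply_zeta_gen {τ : L' ≃ₐ[K] L'} (hτ : τ ∈ Subgroup.zpowers ρ) {q : ℕ}
    (hτζ : τ ζ = ζ ^ q) (hq : (q : ZMod l) = (a : ZMod l)) : τ = ρ := by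
  refine eq_of_mem_zpowers_of_apply_zeta_eq_gen hζ hgn hρL hρζ ha hdet hτ
    (Subgroup.mem_zpowers ρ) ?_
  rw [hτζ, hρζ]
  exact (zeta_pow_eq_iff hζ q a).mpr hq

include hζ hgn hρL hρζ ha in
/-- An element `ρ ^ k` inverting `ζ` acts trivially on `L`. -/
theorem pow_apply_algebraMap_of_apply_zeta_eq_inv_gen {k : ℕ} (h : (ρ ^ k) ζ = ζ⁻¹) (x : L) :
    (ρ ^ k) (algebraMap L L' x) = algebraMap L L' x := by
  rw [pow_apply_zeta hρζ, zeta_pow_eq_inv_iff hζ, Nat.cast_pow] at h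
  have h2 : (a : ZMod l) ^ (2 * k) = 1 := by
    rw [mul_comm, pow_mul, h]
    ring
  have h3 : 2 * n ∣ 2 * k := ha _ h2
  have hnk : n ∣ k := Nat.dvd_of_mul_dvd_mul_left two_pos h3
  rw [pow_apply_algebraMap hρL, pow_eq_one_of_dvd hgn hnk, AlgEquiv.one_apply]

end Order

section Complex

variable {K L L' : Type*} [Field K] [Field L] [Field L'] [Algebra K L] [Algebra L L']
  [Algebra K L'] [IsScalarTower K L L'] [FiniteDimensional K L'] [IsGalois K L']
  {l : ℕ} [Fact l.Prime] {ζ : L'}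
  {g : L ≃ₐ[K] L} {n : ℕ} {ρ : L' ≃ₐ[K] L'} {a : ℕ}
  (hζ : IsPrimitiveRoot ζ l) (hgn : g ^ n = 1)
  (hρL : ∀ x : L, ρ (algebraMap L L' x) = algebraMap L L' (g x))
  (hρζ : ρ ζ = ζ ^ a) (ha : ∀ k : ℕ, (a : ZMod l) ^ k = 1 → 2 * n ∣ k)
  (hdet : ∀ τ : L' ≃ₐ[K] L', (∀ x : L, τ (algebraMap L L' x) = algebraMap L L' x) →
    τ ζ = ζ → τ = 1)

include hζ hgn hρL hρζ ha hdet in
/-- **The fixed field of `⟨ρ⟩` is totally complex** if `L` is. -/
theorem isTotallyComplex_fixedField_gen [IsTotallyComplex L] :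
    IsTotallyComplex ↥(IntermediateField.fixedField (Subgroup.zpowers ρ)) := by
  have hl : l.Prime := Fact.out
  set M := IntermediateField.fixedField (Subgroup.zpowers ρ) with hM
  refine ⟨fun w => ?_⟩
  by_contra hw
  have hreal : w.IsReal := InfinitePlace.not_isComplex_iff_isReal.mp hw
  have hψ : ComplexEmbedding.conjugate w.embedding = w.embedding :=
    ComplexEmbedding.isReal_iff.mp (InfinitePlace.isReal_iff.mp hreal)
  -- extend to `L'`
  set ψ' : L' →+* ℂ := ComplexEmbedding.lift L' w.embedding with hψ'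
  have hres : ψ'.comp (algebraMap M L') = w.embedding :=
    ComplexEmbedding.lift_comp_algebraMap L' w.embedding
  have hcomp : ψ'.comp (algebraMap M L') = (ComplexEmbedding.conjugate ψ').comp (algebraMap M L') := by
    rw [ComplexEmbedding.conjugate_comp, hres, hψ]
  obtain ⟨σ, hσ⟩ := ComplexEmbedding.exists_comp_symm_eq_of_comp_eq ψ'
    (ComplexEmbedding.conjugate ψ') hcomp
  -- the conjugation `c`, as an element of `Gal(L'/K)`
  set c : L' ≃ₐ[K] L' := σ.symm.restrictScalars K with hc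
  have hcapply : ∀ x : L', ψ' (c x) = (starRingEnd ℂ) (ψ' x) := fun x => by
    have h1 : c x = σ.symm x := rfl
    have := RingHom.congr_fun hσ x
    rw [h1]
    simpa using this
  have hcmem : c ∈ Subgroup.zpowers ρ := by
    rw [← IntermediateField.fixingSubgroup_fixedField (Subgroup.zpowers ρ),
      IntermediateField.mem_fixingSubgroup_iff]
    intro x hx
    exact σ.symm.commutes ⟨x, hx⟩
  obtain ⟨k, hk⟩ := exists_pow_eq_of_mem_zpowers_gen hζ hgn hρL hρζ ha hdet hcmem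
  -- `c ζ = ζ⁻¹`
  have hcζ : c ζ = ζ⁻¹ := by
    apply ψ'.injective
    rw [hcapply, map_inv₀]
    have hnorm : ‖ψ' ζ‖ = 1 := by
      apply Complex.norm_eq_one_of_pow_eq_one (n := l) _ hl.ne_zero
      rw [← map_pow, hζ.pow_eq_one, map_one]
    exact (Complex.inv_eq_conj hnorm).symm
  -- hence `c` is trivial on `L`, and `ψ'|_L` is real
  have hcL : ∀ x : L, c (algebraMap L L' x) = algebraMap L L' x := fun x => by
    rw [← hk]
    exact pow_apply_algebraMap_of_apply_zeta_eq_inv_gen hζ hgn hρL hρζ ha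
      (by rw [hk]; exact hcζ) x
  have hLreal : ComplexEmbedding.IsReal (ψ'.comp (algebraMap L L')) := by
    rw [ComplexEmbedding.isReal_iff]
    ext x
    simp only [ComplexEmbedding.conjugate_coe_eq, RingHom.coe_comp, Function.comp_apply]
    rw [← hcapply, hcL]
  exact IsTotallyComplex.complexEmbedding_not_isReal _ hLreal

end Complex

end Fermat.Agent.DS.ChebDens
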