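/-
PROGRAMME III (S48, Deligne–Serre), sub-programme CHEB-DENS, leaf (D1) (helper29): IN A CYCLIC GROUP
WHOSE ORDER IS DIVISIBLE BY `n ^ k`, ALMOST ALL ELEMENTS HAVE ORDER DIVISIBLE BY `n`.

* `card_not_dvd_orderOf_le` : `C` cyclic of order `m`, `n ^ k ∣ m`, `n ≠ 0`:
  `#{τ | ¬ n ∣ orderOf τ} * 2 ^ k ≤ ω(n) * m`;
* `card_dvd_orderOf_ge` : `m (1 - ω(n) / 2 ^ k) ≤ #{τ | n ∣ orderOf τ}`;
* `exists_pow_forall_card_dvd_orderOf_ge` : for `δ > 0` there is `k` such that for EVERY finite cyclic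
  group `C` with `n ^ k ∣ |C|`: `(1 - δ) |C| ≤ #{τ | n ∣ orderOf τ}`;
* `exists_pow_forall_prime_card_units_ge` : the instance `C = (ZMod l)ˣ`;
  `exists_prime_gt_pow_dvd_pred` : arbitrarily large primes `l ≡ 1 mod n ^ k` (Mathlib);
* `exists_prime_crossing` : **helper15's literal (D1)**: for `m > 0`, `δ > 0`, `d ≠ 0` a prime `l` with
  `m ∣ l - 1`, `l ∤ d` and `(1 - δ)(l - 1) ≤ #{τ : (ZMod l)ˣ // m ∣ orderOf τ}`;
  `card_units_zmod`.
-/
import Mathlib

set_option autoImplicit false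

namespace Fermat.Agent.DS.ChebDens

open Finset

open scoped Classical

variable {C : Type*} [Group C] [Fintype C] [IsCyclic C]

omit [IsCyclic C] in
/-- an element whose order is not divisible by `n` is killed by `|C| / q ^ k` for some prime
`q ∣ n` (when `n ^ k ∣ |C|`) -/
theorem exists_prime_pow_eq_one {n k : ℕ} (hn : n ≠ 0) (hk : n ^ k ∣ Fintype.card C) {τ : C}
    (hτ : ¬ n ∣ orderOf τ) :
    ∃ q ∈ n.primeFactors, q ^ k ∣ Fintype.card C ∧ τ ^ (Fintype.card C / q ^ k) = 1 := by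
  set m := Fintype.card C with hm
  have hm0 : m ≠ 0 := Fintype.card_ne_zero
  have ho0 : orderOf τ ≠ 0 := (orderOf_pos τ).ne'
  have hom : orderOf τ ∣ m := orderOf_dvd_card
  -- a prime `q` with `v_q(ord τ) < v_q(n)`
  have h1 : ¬ n.factorization ≤ (orderOf τ).factorization := fun h =>
    hτ ((Nat.factorization_le_iff_dvd hn ho0).mp h)
  rw [Finsupp.le_def] at h1
  push Not at h1
  obtain ⟨q, hq⟩ := h1
  have hqa : n.factorization q ≠ 0 := by omega
  have hqsupp : q ∈ n.factorization.support := Finsupp.mem_support_iff.mpr hqa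
  rw [Nat.support_factorization] at hqsupp
  have hqp : q.Prime := Nat.prime_of_mem_primeFactors hqsupp
  -- `v_q(m) ≥ k v_q(n)`
  have h2 : k * n.factorization q ≤ m.factorization q := by
    have := (Nat.factorization_le_iff_dvd (pow_ne_zero k hn) hm0).mpr hk q
    rwa [Nat.factorization_pow, Finsupp.smul_apply, smul_eq_mul] at this
  -- `q ^ k ∣ m`
  have hqk : q ^ k ∣ m := by
    refine (pow_dvd_pow q ?_).trans (Nat.ordProj_dvd m q)
    calc k ≤ k * n.factorization q := Nat.le_mul_of_pos_right k (Nat.pos_of_ne_zero hqa)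
      _ ≤ m.factorization q := h2
  refine ⟨q, hqsupp, hqk, ?_⟩
  -- `ord τ ∣ m / q ^ k`
  apply orderOf_dvd_iff_pow_eq_one.mp
  have hdiv0 : m / q ^ k ≠ 0 := by
    intro h0
    rw [Nat.div_eq_zero_iff] at h0
    rcases h0 with h0 | h0
    · exact (pow_pos hqp.pos k).ne' h0
    · exact absurd (Nat.le_of_dvd (Nat.pos_of_ne_zero hm0) hqk) (not_le.mpr h0)
  rw [← Nat.factorization_le_iff_dvd ho0 hdiv0, Nat.factorization_div hqk,
    Nat.Prime.factorization_pow hqp, Finsupp.le_def]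
  intro r
  rw [Finsupp.coe_tsub, Pi.sub_apply, Finsupp.single_apply]
  have hr := (Nat.factorization_le_iff_dvd ho0 hm0).mpr hom r
  split_ifs with hrq
  · subst hrq
    -- `v_q(ord τ) ≤ v_q(n) - 1 ≤ v_q(m) - k`
    have ha1 : 1 ≤ n.factorization q := Nat.pos_of_ne_zero hqa
    rcases Nat.eq_zero_or_pos k with hk0 | hkpos
    · rw [hk0]; simpa using hr
    · obtain ⟨k', hk'⟩ : ∃ k', k = k' + 1 := ⟨k - 1, by omega⟩
      obtain ⟨a', ha'⟩ : ∃ a', n.factorization q = a' + 1 := ⟨n.factorization q - 1, by omega⟩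
      have h3 : k * n.factorization q = k' * a' + k' + a' + 1 := by rw [hk', ha']; ring
      have h4 : 0 ≤ k' * a' := Nat.zero_le _
      omega
  · simpa using hr

/-- **the elements whose order is not divisible by `n` are few** -/
theorem card_not_dvd_orderOf_le {n k : ℕ} (hn : n ≠ 0) (hk : n ^ k ∣ Fintype.card C) :
    (univ.filter fun τ : C => ¬ n ∣ orderOf τ).card * 2 ^ k ≤
      n.primeFactors.card * Fintype.card C := by
  set m := Fintype.card C with hm
  have hm0 : 0 < m := Fintype.card_pos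
  -- the bad set is covered by the kernels of the maps `τ ↦ τ ^ (m / q ^ k)`
  have hsub : (univ.filter fun τ : C => ¬ n ∣ orderOf τ) ⊆
      n.primeFactors.biUnion fun q =>
        if q ^ k ∣ m then univ.filter fun τ : C => τ ^ (m / q ^ k) = 1 else ∅ := by
    intro τ hτ
    rw [Finset.mem_filter] at hτ
    obtain ⟨q, hq, hqk, hτq⟩ := exists_prime_pow_eq_one hn hk hτ.2
    rw [Finset.mem_biUnion]
    refine ⟨q, hq, ?_⟩
    rw [if_pos hqk, Finset.mem_filter]
    exact ⟨Finset.mem_univ _, hτq⟩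
  have hpiece : ∀ q ∈ n.primeFactors,
      (if q ^ k ∣ m then univ.filter fun τ : C => τ ^ (m / q ^ k) = 1 else ∅).card * 2 ^ k ≤ m := by
    intro q hq
    have hqp : q.Prime := Nat.prime_of_mem_primeFactors hq
    split_ifs with hqk
    · have hpos : 0 < m / q ^ k :=
        Nat.div_pos (Nat.le_of_dvd hm0 hqk) (pow_pos hqp.pos k)
      have h1 := IsCyclic.card_pow_eq_one_le (α := C) hpos
      calc (univ.filter fun τ : C => τ ^ (m / q ^ k) = 1).card * 2 ^ k
          ≤ (m / q ^ k) * 2 ^ k := Nat.mul_le_mul_right _ h1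
        _ ≤ (m / q ^ k) * q ^ k :=
            Nat.mul_le_mul_left _ (Nat.pow_le_pow_left hqp.two_le k)
        _ = m := Nat.div_mul_cancel hqk
    · simp
  calc (univ.filter fun τ : C => ¬ n ∣ orderOf τ).card * 2 ^ k
      ≤ (n.primeFactors.biUnion fun q =>
          if q ^ k ∣ m then univ.filter fun τ : C => τ ^ (m / q ^ k) = 1 else ∅).card * 2 ^ k :=
        Nat.mul_le_mul_right _ (Finset.card_le_card hsub)
    _ ≤ (∑ q ∈ n.primeFactors,
          (if q ^ k ∣ m then univ.filter fun τ : C => τ ^ (m / q ^ k) = 1 else ∅).card) * 2 ^ k :=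
        Nat.mul_le_mul_right _ Finset.card_biUnion_le
    _ = ∑ q ∈ n.primeFactors,
          (if q ^ k ∣ m then univ.filter fun τ : C => τ ^ (m / q ^ k) = 1 else ∅).card * 2 ^ k :=
        Finset.sum_mul _ _ _
    _ ≤ ∑ _q ∈ n.primeFactors, m := Finset.sum_le_sum hpiece
    _ = n.primeFactors.card * m := by rw [Finset.sum_const, smul_eq_mul]

/-- **almost all elements have order divisible by `n`** -/
theorem card_dvd_orderOf_ge {n k : ℕ} (hn : n ≠ 0) (hk : n ^ k ∣ Fintype.card C) :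
    (Fintype.card C : ℝ) * (1 - (n.primeFactors.card : ℝ) / 2 ^ k) ≤
      ((univ.filter fun τ : C => n ∣ orderOf τ).card : ℝ) := by
  have h1 := card_not_dvd_orderOf_le (C := C) hn hk
  have h2 : (univ.filter fun τ : C => n ∣ orderOf τ).card +
      (univ.filter fun τ : C => ¬ n ∣ orderOf τ).card = Fintype.card C := by
    rw [Finset.card_filter_add_card_filter_not, Finset.card_univ]
  have h1R : ((univ.filter fun τ : C => ¬ n ∣ orderOf τ).card : ℝ) * 2 ^ k ≤
      (n.primeFactors.card : ℝ) * (Fintype.card C : ℝ) := by exact_mod_cast h1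
  have h2R : ((univ.filter fun τ : C => n ∣ orderOf τ).card : ℝ) +
      ((univ.filter fun τ : C => ¬ n ∣ orderOf τ).card : ℝ) = (Fintype.card C : ℝ) := by
    exact_mod_cast h2
  have hpow : (0 : ℝ) < 2 ^ k := by positivity
  have h3 : ((univ.filter fun τ : C => ¬ n ∣ orderOf τ).card : ℝ) ≤
      (n.primeFactors.card : ℝ) * (Fintype.card C : ℝ) / 2 ^ k := by
    rw [le_div_iff₀ hpow]
    exact h1R
  have h4 : (Fintype.card C : ℝ) * (1 - (n.primeFactors.card : ℝ) / 2 ^ k) =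
      (Fintype.card C : ℝ) - (n.primeFactors.card : ℝ) * (Fintype.card C : ℝ) / 2 ^ k := by
    field_simp
  rw [h4]
  linarith

/-- the exponent `k` for a given `δ` -/
theorem exists_pow_card_primeFactors_le (n : ℕ) {δ : ℝ} (hδ : 0 < δ) :
    ∃ k : ℕ, (n.primeFactors.card : ℝ) / 2 ^ k ≤ δ := by
  obtain ⟨k, hk⟩ := pow_unbounded_of_one_lt ((n.primeFactors.card : ℝ) / δ) (by norm_num : (1 : ℝ) < 2)
  refine ⟨k, ?_⟩
  have hpow : (0 : ℝ) < 2 ^ k := by positivity
  rw [div_le_iff₀ hpow]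
  rw [div_lt_iff₀ hδ] at hk
  linarith

end Fermat.Agent.DS.ChebDens

namespace Fermat.Agent.DS.ChebDens

open Finset

open scoped Classical

/-- **(D1)**: for `δ > 0` there is `k` such that in EVERY finite cyclic group `C` with
`n ^ k ∣ |C|` at least `(1 - δ) |C|` elements have order divisible by `n` -/
theorem exists_pow_forall_card_dvd_orderOf_ge (n : ℕ) (hn : n ≠ 0) {δ : ℝ} (hδ : 0 < δ) :
    ∃ k : ℕ, ∀ (C : Type) [Group C] [Fintype C] [IsCyclic C], n ^ k ∣ Fintype.card C →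
      (1 - δ) * (Fintype.card C : ℝ) ≤ ((univ.filter fun τ : C => n ∣ orderOf τ).card : ℝ) := by
  obtain ⟨k, hk⟩ := exists_pow_card_primeFactors_le n hδ
  refine ⟨k, fun C _ _ _ hdvd => ?_⟩
  refine le_trans ?_ (card_dvd_orderOf_ge (C := C) hn hdvd)
  rw [mul_comm]
  exact mul_le_mul_of_nonneg_left (by linarith) (Nat.cast_nonneg _)

/-- **(D1) at `(ℤ/l)ˣ`**: for `δ > 0` there is `k` such that for every prime `l ≡ 1 mod n ^ k` at
least `(1 - δ)(l - 1)` elements of `(ℤ/l)ˣ` have order divisible by `n` -/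
theorem exists_pow_forall_prime_card_units_ge (n : ℕ) (hn : n ≠ 0) {δ : ℝ} (hδ : 0 < δ) :
    ∃ k : ℕ, ∀ (l : ℕ) [Fact l.Prime], n ^ k ∣ l - 1 →
      (1 - δ) * ((l : ℝ) - 1) ≤
        ((univ.filter fun τ : (ZMod l)ˣ => n ∣ orderOf τ).card : ℝ) := by
  obtain ⟨k, hk⟩ := exists_pow_forall_card_dvd_orderOf_ge n hn hδ
  refine ⟨k, fun l _ hdvd => ?_⟩
  have hcard : Fintype.card (ZMod l)ˣ = l - 1 := ZMod.card_units l
  have h := hk (ZMod l)ˣ (by rw [hcard]; exact hdvd)
  rw [hcard, Nat.cast_sub (Fact.out : l.Prime).one_lt.le, Nat.cast_one] at h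
  exact h

/-- there are arbitrarily large primes `l ≡ 1 mod n ^ k` -/
theorem exists_prime_gt_pow_dvd_pred (n k N : ℕ) (hn : n ≠ 0) :
    ∃ l : ℕ, l.Prime ∧ N < l ∧ n ^ k ∣ l - 1 := by
  obtain ⟨l, hl, hNl, hmod⟩ := Nat.exists_prime_gt_modEq_one N (pow_ne_zero k hn)
  exact ⟨l, hl, hNl, (Nat.modEq_iff_dvd' hl.one_lt.le).mp hmod.symm⟩

/-- the order of `(ℤ/l)ˣ` -/
theorem card_units_zmod (l : ℕ) [Fact l.Prime] : Nat.card (ZMod l)ˣ = l - 1 := by
  rw [Nat.card_eq_fintype_card, ZMod.card_units]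

/-- **(D1), helper15's literal**: the prime of Chebotarev's crossing -/
theorem exists_prime_crossing (m : ℕ) (hm : 0 < m) (δ : ℝ) (hδ : 0 < δ) (d : ℤ) (hd : d ≠ 0) :
    ∃ l : ℕ, l.Prime ∧ m ∣ l - 1 ∧ ¬ (l : ℤ) ∣ d ∧
      (1 - δ) * ((l : ℝ) - 1) ≤ (Nat.card {τ : (ZMod l)ˣ // m ∣ orderOf τ} : ℝ) := by
  obtain ⟨k, hk⟩ := exists_pow_forall_prime_card_units_ge m hm.ne' hδ
  obtain ⟨l, hl, hdl, hdvd⟩ := exists_prime_gt_pow_dvd_pred m (k + 1) d.natAbs hm.ne'
  have : Fact l.Prime := ⟨hl⟩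
  refine ⟨l, hl, (dvd_pow_self m (Nat.succ_ne_zero k)).trans hdvd, ?_, ?_⟩
  · intro h
    have h1 : l ∣ d.natAbs := by
      have := Int.natAbs_dvd_natAbs.mpr h
      simpa using this
    have h2 : l ≤ d.natAbs := Nat.le_of_dvd (Int.natAbs_pos.mpr hd) h1
    omega
  · have h3 := hk l ((pow_dvd_pow m (Nat.le_succ k)).trans hdvd)
    rw [Nat.card_eq_fintype_card, Fintype.card_subtype]
    exact h3

end Fermat.Agent.DS.ChebDens
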