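/-
PROGRAMME III (S48, Deligne–Serre), block III/CHEB-DENS (owner helper15), leaf (PER):
the cyclotomic crossing for ONE lift `(σ, u)`.

`L / ℚ` Galois and totally complex, `n = |Gal(L/ℚ)|`, `l ∤ disc L` a prime, `L' = L(ζ_l)`,
`σ ∈ Gal(L/ℚ)`, `u ∈ (ZMod l)ˣ` with `2n ∣ ord u`.  Then there is `ρ ∈ Gal(L'/ℚ)` with `ρ|_L = σ`,
`ρ ζ = ζ ^ u`, `ord ρ = ord u`, and a constant `C` such that for every `s ∈ (1, 2]` there is a
finite set `W` of pairs `(q, Q')`, `q ∉ T` a rational prime, `Q'` a prime of `𝓞 L'` over `q` at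
which `ρ` is THE arithmetic Frobenius, with `(1 / ord u) log (1/(s-1)) - C ≤ ∑_{(q,Q') ∈ W} q^{-s}`.
-/
import Fermat.Agent.DS.ChebDens.CrossGen
import Fermat.Agent.DS.ChebDens.ClassSub

set_option autoImplicit false
set_option linter.style.haveILetI false
set_option linter.unusedSectionVars false

open NumberField IsDedekindDomain

namespace Fermat.Agent.DS.ChebDens

open Fermat.Agent.Cheb Fermat.Agent.Cheb.Cross Fermat.Agent.Cheb.Dens

/-- A set of logarithmic density `d` contains, for every `s ∈ (1, 2]`, a finite subset whose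
weight is at least `d * log (1 / (s - 1)) - C`, with `C` independent of `s`. -/
theorem exists_finset_sum_ge {P : Type*} {w : ℝ → P → ℝ} (hw : IsWeight w) {S : Set P} {d : ℝ}
    (h : HasLogDensity w S d) :
    ∃ C : ℝ, ∀ s : ℝ, 1 < s → s ≤ 2 → ∃ W : Finset P, (∀ v ∈ W, v ∈ S) ∧
      d * Real.log (1 / (s - 1)) - C ≤ ∑ v ∈ W, w s v := by
  classical
  obtain ⟨C₀, hC₀⟩ := h
  refine ⟨C₀ + 1, fun s h1 h2 => ?_⟩
  have hsum : Summable (S.indicator (w s)) := hw.summable_indicator S h1 h2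
  have hlow : d * Real.log (1 / (s - 1)) - C₀ ≤ setSum w S s := by
    have := (abs_le.mp (hC₀ s h1 h2)).1
    linarith
  have hhas : HasSum (S.indicator (w s)) (setSum w S s) := hsum.hasSum
  have hev := hhas.eventually (lt_mem_nhds (show setSum w S s - 1 < setSum w S s by linarith))
  obtain ⟨W₀, hW₀⟩ := hev.exists
  refine ⟨W₀.filter (· ∈ S), fun v hv => (Finset.mem_filter.mp hv).2, ?_⟩
  have heq : ∑ v ∈ W₀.filter (· ∈ S), w s v = ∑ v ∈ W₀, S.indicator (w s) v := by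
    rw [Finset.sum_filter]
    refine Finset.sum_congr rfl fun v _ => ?_
    by_cases hv : v ∈ S
    · rw [if_pos hv, Set.indicator_of_mem hv]
    · rw [if_neg hv, Set.indicator_of_notMem hv]
  rw [heq]
  linarith

/-- a prime of `𝓞 E` containing the rational prime `q` has `ℤ ⧸ (Q ∩ ℤ)` of cardinality `q` -/
theorem card_int_quotient_under {E : Type*} [Field E] [NumberField E] {q : ℕ} (hq : q.Prime)
    (Q : Ideal (𝓞 E)) [hQ : Q.IsPrime] (hqQ : (q : 𝓞 E) ∈ Q) :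
    Nat.card (ℤ ⧸ Q.under ℤ) = q := by
  have hmax : (Ideal.span {(q : ℤ)}).IsMaximal :=
    PrincipalIdealRing.isMaximal_of_irreducible (Nat.prime_iff_prime_int.mp hq).irreducible
  have hle : Ideal.span {(q : ℤ)} ≤ Q.under ℤ := by
    rw [Ideal.span_singleton_le_iff_mem, Ideal.mem_comap]
    simpa using hqQ
  have hne : Q.under ℤ ≠ ⊤ := (Ideal.IsPrime.under ℤ Q).ne_top
  rw [← hmax.eq_of_le hne hle, Int.card_ideal_quot]

section Main

variable (L : Type) [Field L] [NumberField L] [IsGalois ℚ L] [NumberField.IsTotallyComplex L]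

/-- **The cyclotomic crossing for one lift `(σ, u)`.** -/
theorem exists_lift_sum_ge (l : ℕ) [hlF : Fact l.Prime] (hldisc : ¬ (l : ℤ) ∣ NumberField.discr L)
    (σ : L ≃ₐ[ℚ] L) (u : (ZMod l)ˣ) (hu : 2 * Nat.card (L ≃ₐ[ℚ] L) ∣ orderOf u) (T : Finset ℕ) :
    ∃ ρ : CyclotomicField l L ≃ₐ[ℚ] CyclotomicField l L,
      (∀ x : L, ρ (algebraMap L (CyclotomicField l L) x) =
        algebraMap L (CyclotomicField l L) (σ x)) ∧
      ρ (IsCyclotomicExtension.zeta l L (CyclotomicField l L)) =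
        IsCyclotomicExtension.zeta l L (CyclotomicField l L) ^ (u : ZMod l).val ∧
      orderOf ρ = orderOf u ∧
      ∃ C : ℝ, ∀ s : ℝ, 1 < s → s ≤ 2 →
        ∃ W : Finset (ℕ × Ideal (𝓞 (CyclotomicField l L))),
          (∀ w ∈ W, w.1.Prime ∧ w.1 ∉ T ∧ w.2.IsPrime ∧ (w.1 : 𝓞 (CyclotomicField l L)) ∈ w.2 ∧
            IsArithFrobAt ℤ ρ w.2) ∧
          1 / (orderOf u : ℝ) * Real.log (1 / (s - 1)) - C ≤ ∑ w ∈ W, 1 / (w.1 : ℝ) ^ s := by
  classical
  have hlprime : l.Prime := hlF.out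
  haveI : NeZero l := ⟨hlprime.ne_zero⟩
  set n : ℕ := Nat.card (L ≃ₐ[ℚ] L) with hn
  have hgn : σ ^ n = 1 := pow_card_eq_one'
  -- the cyclotomic extension
  let L' := CyclotomicField l L
  haveI : FiniteDimensional ℚ L' := finiteDimensional_of_isCyclotomicExtension ℚ L L' l
  haveI : IsGalois ℚ L' := isGalois_of_isCyclotomicExtension ℚ L L' l
  set ζ : L' := IsCyclotomicExtension.zeta l L L' with hζdef
  have hζ : IsPrimitiveRoot ζ l := IsCyclotomicExtension.zeta_spec l L L'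
  set a : ℕ := (u : ZMod l).val with hadef
  have hau : ((u : (ZMod l)ˣ) : ZMod l) = (a : ZMod l) := by
    rw [hadef, ZMod.natCast_zmod_val]
  have hacop : a.Coprime l := by
    have h1 : IsUnit ((a : ℕ) : ZMod l) := hau ▸ u.isUnit
    exact (ZMod.isUnit_iff_coprime a l).mp h1
  have ha : ∀ k : ℕ, (a : ZMod l) ^ k = 1 → 2 * n ∣ k := by
    intro k hk
    have h1 : u ^ k = 1 := by
      apply Units.ext
      rw [Units.val_pow_eq_pow_val, hau, hk, Units.val_one]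
    exact hu.trans (orderOf_dvd_of_pow_eq_one h1)
  obtain ⟨ρ, hρL, hρζ⟩ := exists_lift_apply_zeta_eq_pow (K := ℚ) l hldisc hζ σ hacop
  have hdet : ∀ τ : L' ≃ₐ[ℚ] L', (∀ x : L, τ (algebraMap L L' x) = algebraMap L L' x) →
      τ ζ = ζ → τ = 1 :=
    eq_one_of_adjoin_eq_top (IsCyclotomicExtension.adjoin_primitive_root_eq_top hζ)
  have hord : orderOf ρ = orderOf u := by
    rw [orderOf_eq_gen hζ hgn hρL hρζ ha hdet, ← hau, orderOf_units]
  refine ⟨ρ, hρL, hρζ, hord, ?_⟩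
  -- the fixed field
  set M : IntermediateField ℚ L' := IntermediateField.fixedField (Subgroup.zpowers ρ) with hM
  haveI : NumberField.IsTotallyComplex ↥M :=
    isTotallyComplex_fixedField_gen hζ hgn hρL hρζ ha hdet
  have hfix : M.fixingSubgroup = Subgroup.zpowers ρ :=
    IntermediateField.fixingSubgroup_fixedField _
  have hrange : (AlgEquiv.restrictScalarsHom ℚ : (L' ≃ₐ[M] L') →* (L' ≃ₐ[ℚ] L')).range =
      Subgroup.zpowers ρ := (range_restrictScalarsHom_eq (K := ℚ) M).trans hfix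
  have hmemρ : ∀ τ : L' ≃ₐ[M] L', τ.restrictScalars ℚ ∈ Subgroup.zpowers ρ := by
    intro τ
    rw [← hrange]
    exact ⟨τ, rfl⟩
  have hρmem : ρ ∈ M.fixingSubgroup := hfix ▸ Subgroup.mem_zpowers ρ
  set ρM : L' ≃ₐ[M] L' := IntermediateField.fixingSubgroupEquiv M ⟨ρ, hρmem⟩ with hρM
  have hρM_apply : ∀ x : L', ρM x = ρ x := fun x => rfl
  haveI : IsCyclic (L' ≃ₐ[M] L') :=
    isCyclic_of_surjective (IntermediateField.subgroupEquivAlgEquiv (Subgroup.zpowers ρ))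
      (IntermediateField.subgroupEquivAlgEquiv (Subgroup.zpowers ρ)).surjective
  -- every element of `Gal(L'/M)` acts on `ζ` through a power of `a`
  have hcyc : ∀ τ : L' ≃ₐ[M] L', ∃ k : ℕ, τ ζ = ζ ^ (a ^ k) := by
    intro τ
    obtain ⟨k, hk⟩ := exists_pow_eq_of_mem_zpowers_gen hζ hgn hρL hρζ ha hdet (hmemρ τ)
    refine ⟨k, ?_⟩
    have h1 : τ ζ = (τ.restrictScalars ℚ) ζ := rfl
    rw [h1, ← hk, pow_apply_zeta hρζ]
  -- a prime whose norm residue generates `⟨u⟩`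
  have hgen : ∃ P : Ideal (𝓞 M), P ≠ ⊥ ∧ IsCoprime P (Ideal.span {(l : 𝓞 M)}) ∧
      Subgroup.zpowers (normRes M l P) = Subgroup.zpowers u := by
    obtain ⟨Q₀, g₀, hQ₀p, hq₀prime, hq₀T, hg₀, hgen₀⟩ :=
      cyclicGenFrob M L' ({l} : Finset ℕ)
    haveI := hQ₀p
    set q₀ := Nat.card (𝓞 M ⧸ Q₀.under (𝓞 M)) with hq₀
    have hq₀l : q₀ ≠ l := fun h => hq₀T (by rw [h]; exact Finset.mem_singleton_self l)
    have hq₀Q : (q₀ : 𝓞 L') ∈ Q₀ := natCast_mem_of_card_quotient_under (K := M) rfl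
    have hlQ₀ : (l : 𝓞 L') ∉ Q₀ := natCast_notMem_of_ne hlprime hq₀prime hq₀l hq₀Q
    have hg₀ζ : g₀ ζ = ζ ^ q₀ := apply_zeta_of_isArithFrobAt hg₀ hζ hlQ₀
    set P₀ : Ideal (𝓞 M) := Q₀.under (𝓞 M) with hP₀
    have hq₀P : (q₀ : 𝓞 M) ∈ P₀ := by
      rw [hP₀, Ideal.under_def, Ideal.mem_comap, map_natCast]
      exact hq₀Q
    have hP₀0 : P₀ ≠ ⊥ := by
      intro h
      rw [h, Ideal.mem_bot] at hq₀P
      exact hq₀prime.ne_zero (by exact_mod_cast hq₀P)
    have hlP₀ : (l : 𝓞 M) ∉ P₀ := by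
      intro h
      apply hlQ₀
      rw [hP₀, Ideal.under_def, Ideal.mem_comap, map_natCast] at h
      exact h
    have hcop₀ : IsCoprime P₀ (Ideal.span {(l : 𝓞 M)}) :=
      isCoprime_span_natCast_of_notMem hP₀0 hlP₀
    have hu₀ : ((normRes M l P₀ : (ZMod l)ˣ) : ZMod l) = (q₀ : ZMod l) := by
      rw [coe_normRes_of_isCoprime hcop₀, Ideal.absNorm_apply, Submodule.cardQuot_apply]
    refine ⟨P₀, hP₀0, hcop₀, le_antisymm ?_ ?_⟩
    · rw [Subgroup.zpowers_le]
      exact normRes_prime_mem_zpowers hζ u a hau hcyc P₀ hP₀0 hcop₀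
    · rw [Subgroup.zpowers_le]
      have h1 : ρM ∈ Subgroup.zpowers g₀ := hgen₀ ▸ Subgroup.mem_top ρM
      rw [← mem_powers_iff_mem_zpowers, Submonoid.mem_powers_iff] at h1
      obtain ⟨j, hj⟩ := h1
      have h2 : (g₀ ^ j) ζ = ζ ^ (q₀ ^ j) := pow_apply_zeta hg₀ζ j
      rw [hj, hρM_apply, hρζ, zeta_pow_eq_iff hζ, Nat.cast_pow] at h2
      rw [← mem_powers_iff_mem_zpowers, Submonoid.mem_powers_iff]
      refine ⟨j, ?_⟩
      apply Units.ext
      rw [Units.val_pow_eq_pow_val, hu₀, hau, h2]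
  -- the class density theorem for `⟨u⟩`
  have hdens := hasLogDensity_normRes_eq hζ u a hau hcyc hgen
  have hT' : {v : HeightOneSpectrum (𝓞 M) | Ideal.absNorm v.asIdeal ∈ T}.Finite :=
    finite_setOf_absNorm_mem M T
  have hdens' := hdens.diff_finite (isWeight_primeTerm M) hT'
  obtain ⟨C, hC⟩ := exists_finset_sum_ge (isWeight_primeTerm M) hdens'
  refine ⟨C, fun s h1 h2 => ?_⟩
  obtain ⟨W₀, hW₀S, hW₀⟩ := hC s h1 h2
  -- the prime of `L'` over `v`
  let f : HeightOneSpectrum (𝓞 M) → ℕ × Ideal (𝓞 L') := fun v =>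
    haveI : v.asIdeal.IsPrime := v.isPrime
    (Ideal.absNorm v.asIdeal, S14.primeOver M L' v.asIdeal)
  have hfinj : Function.Injective f := by
    intro v v' hvv'
    haveI : v.asIdeal.IsPrime := v.isPrime
    haveI : v'.asIdeal.IsPrime := v'.isPrime
    have h3 : S14.primeOver M L' v.asIdeal = S14.primeOver M L' v'.asIdeal :=
      congrArg Prod.snd hvv'
    apply HeightOneSpectrum.ext
    rw [Ideal.over_def (S14.primeOver M L' v.asIdeal) v.asIdeal,
      Ideal.over_def (S14.primeOver M L' v'.asIdeal) v'.asIdeal, h3]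
  refine ⟨W₀.image f, ?_, ?_⟩
  · intro w hw
    obtain ⟨v, hvW, rfl⟩ := Finset.mem_image.mp hw
    obtain ⟨⟨⟨hvcop, hvclass⟩, hvdeg⟩, hvT⟩ := hW₀S v hvW
    haveI : v.asIdeal.IsPrime := v.isPrime
    set Q' : Ideal (𝓞 L') := S14.primeOver M L' v.asIdeal with hQ'
    have hτ : IsArithFrobAt (𝓞 M) (S14.frob M L' v.asIdeal) Q' :=
      S14.frob_spec M L' v.asIdeal v.ne_bot
    set τ : L' ≃ₐ[M] L' := S14.frob M L' v.asIdeal with hτdef
    have hcard : Nat.card (𝓞 M ⧸ Q'.under (𝓞 M)) = Ideal.absNorm v.asIdeal := by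
      rw [← Ideal.over_def Q' v.asIdeal, Ideal.absNorm_apply, Submodule.cardQuot_apply]
    set q : ℕ := Ideal.absNorm v.asIdeal with hq
    have hqprime : q.Prime := hvdeg
    have hlQ' : (l : 𝓞 L') ∉ Q' := by
      intro h
      have h1 : (l : 𝓞 M) ∈ v.asIdeal := by
        rw [Ideal.over_def Q' v.asIdeal, Ideal.under_def, Ideal.mem_comap, map_natCast]
        exact h
      rw [Ideal.isCoprime_iff_sup_eq] at hvcop
      have h2 : v.asIdeal ⊔ Ideal.span {(l : 𝓞 M)} ≤ v.asIdeal :=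
        sup_le le_rfl ((Ideal.span_singleton_le_iff_mem _).mpr h1)
      rw [hvcop, top_le_iff] at h2
      exact v.isPrime.ne_top h2
    have hτζ : (τ.restrictScalars ℚ) ζ = ζ ^ q := by
      have := apply_zeta_of_isArithFrobAt hτ hζ hlQ'
      rw [hcard] at this
      exact this
    have hqa : (q : ZMod l) = (a : ZMod l) := by
      rw [← coe_normRes_of_isCoprime hvcop, hvclass, hau]
    have hτρ : τ.restrictScalars ℚ = ρ :=
      eq_rho_of_apply_zeta_gen hζ hgn hρL hρζ ha hdet (hmemρ τ) hτζ hqa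
    have hqQ' : (q : 𝓞 L') ∈ Q' := natCast_mem_of_card_quotient_under (K := M) hcard
    refine ⟨hqprime, hvT, inferInstance, hqQ', ?_⟩
    intro x
    have h3 := hτ x
    rw [hcard] at h3
    rw [card_int_quotient_under hqprime Q' hqQ', ← hτρ]
    exact h3
  · rw [Finset.sum_image (fun v _ v' _ h => hfinj h)]
    refine hW₀.trans (le_of_eq ?_)
    refine Finset.sum_congr rfl fun v _ => ?_
    show primeTerm M s v = 1 / ((Ideal.absNorm v.asIdeal : ℕ) : ℝ) ^ s
    rw [primeTerm, Real.rpow_neg (Nat.cast_nonneg _), one_div]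

end Main

end Fermat.Agent.DS.ChebDens
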