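import Mathlib
import Fermat.Prelude.Def_EllipticCurve_FrobeniusTrace

/-!
# III/CHEB-DENS: the one-sided density form of Chebotarev — statements of the three layers

* `FrobSumGeTC` : number-field form, `L / ℚ` Galois and totally complex (proved by the cyclotomic
  crossing with one auxiliary prime `l`, summing over all lifts `(σ, u)`, `σ ∈ B`, `2n ∣ ord u`);
* `FrobSumGeNF` : the same without `IsTotallyComplex` (reduction: replace `L` by `L(i)`);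
* `FrobSumGe`   : Prelude vocabulary (`ValuationSubring Qb`, `IsFrobeniusAt`), the literal of finding
  #1966, consumed by K-DS5-ASM.
-/

set_option autoImplicit false

open scoped NumberField

namespace Fermat.Agent.DS.ChebDens

/-- One-sided density Chebotarev over `ℚ`, number-field form, totally complex case. -/
def FrobSumGeTC : Prop :=
  ∀ (L : Type) [Field L] [NumberField L] [IsGalois ℚ L] [NumberField.IsTotallyComplex L]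
    (B : Set (L ≃ₐ[ℚ] L)) (δ : ℝ), 0 < δ → ∀ T : Finset ℕ,
    ∃ K₀ : ℝ, ∀ s : ℝ, 1 < s → s ≤ 2 → ∃ F : Finset ℕ,
      (∀ p ∈ F, p.Prime ∧ p ∉ T ∧ ∃ Q : Ideal (𝓞 L), Q.IsPrime ∧ (p : 𝓞 L) ∈ Q ∧
        ∃ σ ∈ B, IsArithFrobAt ℤ σ Q) ∧
      ((Nat.card B : ℝ) / Nat.card (L ≃ₐ[ℚ] L) - δ) * Real.log (1 / (s - 1)) - K₀ ≤
        ∑ p ∈ F, 1 / (p : ℝ) ^ s

/-- One-sided density Chebotarev over `ℚ`, number-field form. -/
def FrobSumGeNF : Prop :=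
  ∀ (L : Type) [Field L] [NumberField L] [IsGalois ℚ L]
    (B : Set (L ≃ₐ[ℚ] L)) (δ : ℝ), 0 < δ → ∀ T : Finset ℕ,
    ∃ K₀ : ℝ, ∀ s : ℝ, 1 < s → s ≤ 2 → ∃ F : Finset ℕ,
      (∀ p ∈ F, p.Prime ∧ p ∉ T ∧ ∃ Q : Ideal (𝓞 L), Q.IsPrime ∧ (p : 𝓞 L) ∈ Q ∧
        ∃ σ ∈ B, IsArithFrobAt ℤ σ Q) ∧
      ((Nat.card B : ℝ) / Nat.card (L ≃ₐ[ℚ] L) - δ) * Real.log (1 / (s - 1)) - K₀ ≤
        ∑ p ∈ F, 1 / (p : ℝ) ^ s

/-- One-sided density Chebotarev over `ℚ`, Prelude vocabulary (finding #1966). -/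
def FrobSumGe : Prop :=
  ∀ (L : IntermediateField ℚ (AlgebraicClosure ℚ)) [FiniteDimensional ℚ L] [IsGalois ℚ L]
    (B : Set (L ≃ₐ[ℚ] L)), (∀ g h : L ≃ₐ[ℚ] L, h ∈ B → g * h * g⁻¹ ∈ B) →
    ∀ δ : ℝ, 0 < δ → ∀ T : Finset ℕ,
    ∃ K₀ : ℝ, ∀ s : ℝ, 1 < s → s ≤ 2 → ∃ F : Finset ℕ,
      (∀ p ∈ F, p.Prime ∧ p ∉ T ∧
        ∀ A : ValuationSubring (AlgebraicClosure ℚ), A.LiesOverPrime p →
          ∀ φ : AlgebraicClosure ℚ ≃ₐ[ℚ] AlgebraicClosure ℚ, A.IsFrobeniusAt φ p →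
            AlgEquiv.restrictNormalHom L φ ∈ B) ∧
      ((Nat.card B : ℝ) / Nat.card (L ≃ₐ[ℚ] L) - δ) * Real.log (1 / (s - 1)) - K₀ ≤
        ∑ p ∈ F, 1 / (p : ℝ) ^ s

end Fermat.Agent.DS.ChebDens
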