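/-
PROGRAMME III (S48, Deligne–Serre), block III/CHEB-DENS (owner helper15), leaf (MAIN):
`frobSumGeTC : FrobSumGeTC`, the one-sided density form of Chebotarev over `ℚ` for a totally
complex Galois number field, by the cyclotomic crossing with ONE auxiliary prime `l`, summing over
all lifts `(σ, u)`, `σ ∈ B`, `2n ∣ ord u`, with weights `ord u` (helper16's simplification S-b).
-/
import Fermat.Agent.DS.ChebDens.Statements
import Fermat.Agent.DS.ChebDens.PerLift
import Fermat.Agent.DS.ChebDens.CyclicCount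
import Fermat.Agent.DS.ChebDens.Comb
import Fermat.Agent.DS.ChebDens.CountBridge

set_option autoImplicit false
set_option linter.style.haveILetI false
set_option linter.unusedSectionVars false

open NumberField IsDedekindDomain

namespace Fermat.Agent.DS.ChebDens

open Fermat.Agent.Cheb Fermat.Agent.Cheb.Cross

/-- The restriction to `L` of an arithmetic Frobenius (over `ℤ`) at `Q'` is an arithmetic Frobenius
at `Q' ∩ 𝓞 L`. -/
theorem isArithFrobAt_int_of_lift {L L' : Type*} [Field L] [Field L'] [NumberField L]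
    [NumberField L'] [Algebra L L'] (ρ : L' ≃ₐ[ℚ] L') (g : L ≃ₐ[ℚ] L)
    (hg : ∀ x : L, ρ (algebraMap L L' x) = algebraMap L L' (g x)) (Q' : Ideal (𝓞 L'))
    (h : IsArithFrobAt ℤ ρ Q') : IsArithFrobAt ℤ g (Q'.under (𝓞 L)) := by
  intro x
  have hunder : (Q'.under (𝓞 L)).under ℤ = Q'.under ℤ := Ideal.under_under _
  rw [hunder, Ideal.under_def, Ideal.mem_comap, map_sub, map_pow]
  have h1 := h (algebraMap (𝓞 L) (𝓞 L') x)
  have e : algebraMap (𝓞 L) (𝓞 L') ((MulSemiringAction.toAlgHom ℤ (𝓞 L) g) x) =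
      (MulSemiringAction.toAlgHom ℤ (𝓞 L') ρ) (algebraMap (𝓞 L) (𝓞 L') x) := by
    apply RingOfIntegers.ext
    change algebraMap L L' (g x) = ρ (algebraMap L L' x)
    exact (hg x).symm
  rw [e]
  exact h1

/-- **One-sided density Chebotarev over `ℚ`, totally complex case.** -/
theorem frobSumGeTC : FrobSumGeTC := by
  intro L _ _ _ _ B δ hδ T
  classical
  set n : ℕ := Nat.card (L ≃ₐ[ℚ] L) with hn
  have hn0 : 0 < n := Nat.card_pos
  -- the auxiliary prime
  obtain ⟨l, hlprime, -, hldisc, hgood⟩ :=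
    exists_prime_crossing (2 * n) (by positivity) δ hδ (NumberField.discr L)
      (NumberField.discr_ne_zero L)
  haveI hlF : Fact l.Prime := ⟨hlprime⟩
  haveI : NeZero l := ⟨hlprime.ne_zero⟩
  let L' := CyclotomicField l L
  haveI : FiniteDimensional ℚ L' := finiteDimensional_of_isCyclotomicExtension ℚ L L' l
  haveI : IsGalois ℚ L' := isGalois_of_isCyclotomicExtension ℚ L L' l
  set ζ : L' := IsCyclotomicExtension.zeta l L L' with hζdef
  have hζ : IsPrimitiveRoot ζ l := IsCyclotomicExtension.zeta_spec l L L'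
  -- the order of the big Galois group
  set G : ℕ := Nat.card (L' ≃ₐ[ℚ] L') with hG
  have hGeq : G = n * (l - 1) := by
    rw [hG, hn, IsGalois.card_aut_eq_finrank, IsGalois.card_aut_eq_finrank,
      ← Module.finrank_mul_finrank ℚ L L', finrank_eq_of_not_dvd_discr l hldisc]
  -- the excluded primes
  set T' : Finset ℕ := T ∪ (NumberField.discr L').natAbs.primeFactors with hT'
  have hT'disc : ∀ p : ℕ, p.Prime → p ∉ T' → ¬ (p : ℤ) ∣ NumberField.discr L' := by
    intro p hp hpT h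
    apply hpT
    rw [hT', Finset.mem_union]
    right
    rw [Nat.mem_primeFactors]
    exact ⟨hp, Int.natCast_dvd.mp h, Int.natAbs_ne_zero.mpr (NumberField.discr_ne_zero L')⟩
  -- the lifts
  have key : ∀ i : (L ≃ₐ[ℚ] L) × (ZMod l)ˣ, 2 * n ∣ orderOf i.2 →
      ∃ ρ : L' ≃ₐ[ℚ] L',
      (∀ x : L, ρ (algebraMap L L' x) = algebraMap L L' (i.1 x)) ∧
      ρ ζ = ζ ^ (i.2 : ZMod l).val ∧ orderOf ρ = orderOf i.2 ∧
      ∃ C : ℝ, ∀ s : ℝ, 1 < s → s ≤ 2 → ∃ W : Finset (ℕ × Ideal (𝓞 L')),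
        (∀ w ∈ W, w.1.Prime ∧ w.1 ∉ T' ∧ w.2.IsPrime ∧ (w.1 : 𝓞 L') ∈ w.2 ∧
          IsArithFrobAt ℤ ρ w.2) ∧
        1 / (orderOf i.2 : ℝ) * Real.log (1 / (s - 1)) - C ≤ ∑ w ∈ W, 1 / (w.1 : ℝ) ^ s :=
    fun i hi => exists_lift_sum_ge L l hldisc i.1 i.2 hi T'
  choose! ρ hρL hρζ hρord C W hWprop hWsum using key
  -- the index set
  set Bf : Finset (L ≃ₐ[ℚ] L) := (Set.toFinite B).toFinset with hBf
  set U : Finset (ZMod l)ˣ := Finset.univ.filter (fun u : (ZMod l)ˣ => 2 * n ∣ orderOf u) with hU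
  set I : Finset ((L ≃ₐ[ℚ] L) × (ZMod l)ˣ) := Bf ×ˢ U with hI
  have hIgood : ∀ i ∈ I, 2 * n ∣ orderOf i.2 := by
    intro i hi
    rw [hI, Finset.mem_product, hU, Finset.mem_filter] at hi
    exact hi.2.2
  have hIB : ∀ i ∈ I, i.1 ∈ B := by
    intro i hi
    rw [hI, Finset.mem_product, hBf, Set.Finite.mem_toFinset] at hi
    exact hi.1
  -- the lifts are pairwise distinct
  have hρinj : Set.InjOn ρ (I : Set ((L ≃ₐ[ℚ] L) × (ZMod l)ˣ)) := by
    intro i hi j hj hij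
    have hi' := hIgood i hi
    have hj' := hIgood j hj
    apply Prod.ext
    · ext x
      apply (algebraMap L L').injective
      rw [← hρL i hi' x, ← hρL j hj' x, hij]
    · have h1 : ζ ^ (i.2 : ZMod l).val = ζ ^ (j.2 : ZMod l).val := by
        rw [← hρζ i hi', ← hρζ j hj', hij]
      rw [zeta_pow_eq_iff hζ, ZMod.natCast_zmod_val, ZMod.natCast_zmod_val] at h1
      exact Units.ext h1
  -- cardinalities
  have hcardB : (Nat.card B : ℝ) = (Bf.card : ℝ) := by
    rw [hBf, Nat.card_coe_set_eq, Set.ncard_eq_toFinset_card B (Set.toFinite B)]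
  have hcardU : (Nat.card {τ : (ZMod l)ˣ // 2 * n ∣ orderOf τ} : ℝ) = (U.card : ℝ) := by
    rw [hU, Nat.card_eq_fintype_card, Fintype.card_subtype]
  have hBle : Bf.card ≤ n := by
    rw [hn, Nat.card_eq_fintype_card]
    exact Finset.card_le_univ Bf
  -- the constant
  refine ⟨(∑ i ∈ I, (orderOf i.2 : ℝ) * C i) / (G : ℝ), fun s h1 h2 => ?_⟩
  set F : Finset ℕ := I.biUnion (fun i => (W i s).image Prod.fst) with hF
  have hFmem : ∀ i ∈ I, ∀ w ∈ W i s, w.1 ∈ F := by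
    intro i hi w hw
    rw [hF, Finset.mem_biUnion]
    exact ⟨i, hi, Finset.mem_image_of_mem _ hw⟩
  refine ⟨F, ?_, ?_⟩
  · -- the primes of `F`
    intro p hp
    rw [hF, Finset.mem_biUnion] at hp
    obtain ⟨i, hi, hp⟩ := hp
    obtain ⟨w, hw, rfl⟩ := Finset.mem_image.mp hp
    obtain ⟨hwp, hwT, hwprime, hwmem, hwfrob⟩ := hWprop i (hIgood i hi) s h1 h2 w hw
    haveI := hwprime
    refine ⟨hwp, fun h => hwT (Finset.mem_union_left _ h), w.2.under (𝓞 L), inferInstance, ?_,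
      i.1, hIB i hi, isArithFrobAt_int_of_lift (ρ i) i.1 (hρL i (hIgood i hi)) w.2 hwfrob⟩
    rw [Ideal.under_def, Ideal.mem_comap, map_natCast]
    exact hwmem
  · -- the inequality
    have hWE : ∀ i ∈ I, ∀ w ∈ W i s, w.1.Prime ∧ ¬ ((w.1 : ℕ) : ℤ) ∣ NumberField.discr L' ∧
        w.2.IsPrime ∧ ((w.1 : ℕ) : 𝓞 L') ∈ w.2 ∧ IsArithFrobAt ℤ (ρ i) w.2 := by
      intro i hi w hw
      obtain ⟨hwp, hwT, hwprime, hwmem, hwfrob⟩ := hWprop i (hIgood i hi) s h1 h2 w hw
      exact ⟨hwp, hT'disc w.1 hwp hwT, hwprime, hwmem, hwfrob⟩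
    have hcount : ∀ p : ℕ,
        ∑ i ∈ I, orderOf (ρ i) * ((W i s).filter (fun w => w.1 = p)).card ≤ G := fun p =>
      SumFrob.sum_orderOf_mul_card_filter_le I ρ hρinj (fun i => W i s) hWE p
    have hcomb := sum_weighted_le I (fun i => W i s) (fun i => orderOf (ρ i)) G hcount s F hFmem
    -- lower bound of the left-hand side
    set LG : ℝ := Real.log (1 / (s - 1)) with hLG
    have hLG0 : 0 ≤ LG := by
      apply Real.log_nonneg
      rw [le_div_iff₀ (by linarith)]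
      linarith
    have hlow : ∀ i ∈ I, LG - (orderOf i.2 : ℝ) * C i ≤
        (orderOf (ρ i) : ℝ) * ∑ w ∈ W i s, 1 / (w.1 : ℝ) ^ s := by
      intro i hi
      rw [hρord i (hIgood i hi)]
      have hpos : (0 : ℝ) < orderOf i.2 := Nat.cast_pos.mpr (orderOf_pos i.2)
      have h3 := mul_le_mul_of_nonneg_left (hWsum i (hIgood i hi) s h1 h2) hpos.le
      have h4 : (orderOf i.2 : ℝ) * (1 / (orderOf i.2 : ℝ) * LG - C i) =
          LG - (orderOf i.2 : ℝ) * C i := by
        field_simp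
      rw [← h4]
      exact h3
    have hsumlow : (I.card : ℝ) * LG - ∑ i ∈ I, (orderOf i.2 : ℝ) * C i ≤
        (G : ℝ) * ∑ p ∈ F, 1 / (p : ℝ) ^ s := by
      refine le_trans ?_ hcomb
      refine le_trans (le_of_eq ?_) (Finset.sum_le_sum hlow)
      rw [Finset.sum_sub_distrib, Finset.sum_const, nsmul_eq_mul]
    -- arithmetic
    have hIcard : (I.card : ℝ) = (Bf.card : ℝ) * (U.card : ℝ) := by
      rw [hI, Finset.card_product, Nat.cast_mul]
    have hl1 : (1 : ℝ) ≤ (l : ℝ) := by exact_mod_cast hlprime.one_lt.le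
    have hGreal : (G : ℝ) = (n : ℝ) * ((l : ℝ) - 1) := by
      rw [hGeq, Nat.cast_mul, Nat.cast_sub hlprime.one_lt.le, Nat.cast_one]
    have hm0 : (0 : ℝ) < (l : ℝ) - 1 := by
      have : (1 : ℝ) < (l : ℝ) := by exact_mod_cast hlprime.one_lt
      linarith
    have hnpos : (0 : ℝ) < (n : ℝ) := Nat.cast_pos.mpr hn0
    have hGpos : (0 : ℝ) < (G : ℝ) := by rw [hGreal]; positivity
    have hbn : (Bf.card : ℝ) ≤ (n : ℝ) := by exact_mod_cast hBle
    have hb0 : (0 : ℝ) ≤ (Bf.card : ℝ) := Nat.cast_nonneg _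
    rw [hcardU] at hgood
    have hcoef : ((Bf.card : ℝ) / (n : ℝ) - δ) * (G : ℝ) ≤ (Bf.card : ℝ) * (U.card : ℝ) := by
      have e1 : ((Bf.card : ℝ) / (n : ℝ) - δ) * (G : ℝ) =
          ((Bf.card : ℝ) - δ * (n : ℝ)) * ((l : ℝ) - 1) := by
        rw [hGreal]
        field_simp
      rw [e1]
      have e2 : ((Bf.card : ℝ) - δ * (n : ℝ)) * ((l : ℝ) - 1) ≤
          (Bf.card : ℝ) * ((1 - δ) * ((l : ℝ) - 1)) := by
        have : δ * (Bf.card : ℝ) * ((l : ℝ) - 1) ≤ δ * (n : ℝ) * ((l : ℝ) - 1) :=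
          mul_le_mul_of_nonneg_right (mul_le_mul_of_nonneg_left hbn hδ.le) hm0.le
        nlinarith
      exact e2.trans (mul_le_mul_of_nonneg_left hgood hb0)
    rw [hcardB]
    have hfinal : (((Bf.card : ℝ) / (n : ℝ) - δ) * LG -
        (∑ i ∈ I, (orderOf i.2 : ℝ) * C i) / (G : ℝ)) * (G : ℝ) ≤
        (∑ p ∈ F, 1 / (p : ℝ) ^ s) * (G : ℝ) := by
      have e3 : (((Bf.card : ℝ) / (n : ℝ) - δ) * LG -
          (∑ i ∈ I, (orderOf i.2 : ℝ) * C i) / (G : ℝ)) * (G : ℝ) =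
          (((Bf.card : ℝ) / (n : ℝ) - δ) * (G : ℝ)) * LG -
            ∑ i ∈ I, (orderOf i.2 : ℝ) * C i := by
        field_simp
      rw [e3, mul_comm (∑ p ∈ F, 1 / (p : ℝ) ^ s) (G : ℝ)]
      refine le_trans ?_ hsumlow
      rw [hIcard]
      have := mul_le_mul_of_nonneg_right hcoef hLG0
      linarith
    exact le_of_mul_le_mul_right hfinal hGpos

end Fermat.Agent.DS.ChebDens
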