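/-
Programme III (S48, Deligne–Serre) — kernel CHEB-DENS, leaf (W2) (helper21).

`frobSumGe_of_nf : FrobSumGeNF → FrobSumGe`: the one-sided density form of Chebotarev's theorem
passes from the number-field vocabulary (`Ideal (𝓞 L)`, Mathlib's `IsArithFrobAt ℤ`) to the Prelude
vocabulary (`ValuationSubring Qb`, `IsFrobeniusAt`), for a conjugation-stable set `B`.

For `p ∈ F` (so `p ∉ T`, `p ∤ disc L`, and some prime `Q ∋ p` of `𝓞 L` has a Frobenius `σ ∈ B`):
if `A` is a valuation subring of `Qb` over `p` and `φ` a Frobenius at `A`, then the center `Q_A` of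
`A` on `𝓞 L` is `τ • Q` for some `τ` (transitivity), `τ σ τ⁻¹` is a Frobenius at `Q_A`
(`IsArithFrobAt.conj`), hence `φ|_L = τ σ τ⁻¹ ∈ B` by uniqueness at unramified primes (FrobDict).
-/
import Fermat.Agent.DS.ChebDens.Statements
import Fermat.Agent.Cheb.FrobDict

set_option autoImplicit false
set_option linter.unusedSectionVars false
set_option linter.style.haveILetI false

open scoped NumberField Pointwise

namespace Fermat.Agent.DS.ChebDens

open Fermat.Agent.Cheb Fermat.Agent.CFT.IdeleDict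

namespace Wrapper

local notation "Qb" => AlgebraicClosure ℚ
local notation "GQ" => (AlgebraicClosure ℚ ≃ₐ[ℚ] AlgebraicClosure ℚ)

/-- A prime of `𝓞 E` containing the rational prime `p` lies over `(p)`. -/
theorem liesOver_span_natCast {E : Type*} [Field E] [NumberField E] {p : ℕ} (hp : p.Prime)
    (Q : Ideal (𝓞 E)) [hQ : Q.IsPrime] (hpQ : (p : 𝓞 E) ∈ Q) :
    Q.LiesOver (Ideal.span {(p : ℤ)}) := by
  constructor
  have hmax : (Ideal.span {(p : ℤ)}).IsMaximal :=
    (Ideal.isPrime_of_prime (Ideal.prime_span_singleton_iff.mpr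
      (Nat.prime_iff_prime_int.mp hp))).isMaximal (by simp [hp.ne_zero])
  have hle : Ideal.span {(p : ℤ)} ≤ Q.under ℤ := by
    rw [Ideal.span_singleton_le_iff_mem, Ideal.under_def, Ideal.mem_comap]
    simpa using hpQ
  have hne : Q.under ℤ ≠ ⊤ := (Ideal.IsPrime.under ℤ Q).ne_top
  exact hmax.eq_of_le hne hle

/-- The local step: at a prime `p ∤ disc L` with a Frobenius `σ ∈ B` at SOME prime of `𝓞 L` over
`p`, the restriction to `L` of EVERY Frobenius element at EVERY valuation subring over `p` lies in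
the conjugation-stable set `B`. -/
theorem restrict_mem_of_isArithFrobAt (L : IntermediateField ℚ Qb) [NumberField L] [IsGalois ℚ L]
    (B : Set (L ≃ₐ[ℚ] L)) (hB : ∀ g h : L ≃ₐ[ℚ] L, h ∈ B → g * h * g⁻¹ ∈ B)
    {p : ℕ} (hp : p.Prime) (hd : ¬ (p : ℤ) ∣ NumberField.discr L)
    (Q : Ideal (𝓞 L)) [hQ : Q.IsPrime] (hpQ : (p : 𝓞 L) ∈ Q) {σ : L ≃ₐ[ℚ] L} (hσB : σ ∈ B)
    (hσ : IsArithFrobAt ℤ σ Q) (A : ValuationSubring Qb) (hA : A.LiesOverPrime p) (φ : GQ)
    (hφ : A.IsFrobeniusAt φ p) : AlgEquiv.restrictNormalHom L φ ∈ B := by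
  haveI : Q.LiesOver (Ideal.span {(p : ℤ)}) := liesOver_span_natCast hp Q hpQ
  haveI : (centerOn L A).LiesOver (Ideal.span {(p : ℤ)}) := centerOn_liesOver L hp hA
  obtain ⟨τ, hτ⟩ := Ideal.exists_smul_eq_of_isGaloisGroup (Ideal.span {(p : ℤ)}) Q
    (centerOn L A) (L ≃ₐ[ℚ] L)
  have h1 : IsArithFrobAt ℤ (τ * σ * τ⁻¹) (centerOn L A) := hτ ▸ hσ.conj τ
  have h2 : AlgEquiv.restrictNormalHom L φ = τ * σ * τ⁻¹ :=
    restrict_eq_of_isArithFrobAt_of_not_dvd_discr L hp hA hφ h1 hd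
  rw [h2]
  exact hB τ σ hσB

end Wrapper

/-- **(W2)** The Prelude form of the one-sided density Chebotarev theorem follows from the
number-field form. -/
theorem frobSumGe_of_nf (h : FrobSumGeNF) : FrobSumGe := by
  intro L _ _ B hB δ hδ T
  haveI : NumberField L := numberField_of_finiteDimensional L
  obtain ⟨K₀, hK₀⟩ := h L B δ hδ (T ∪ (NumberField.discr L).natAbs.primeFactors)
  refine ⟨K₀, fun s hs1 hs2 => ?_⟩
  obtain ⟨F, hF, hsum⟩ := hK₀ s hs1 hs2
  refine ⟨F, fun p hpF => ?_, hsum⟩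
  obtain ⟨hp, hpT, Q, hQ, hpQ, σ, hσB, hσ⟩ := hF p hpF
  rw [Finset.mem_union, not_or] at hpT
  have hd : ¬ (p : ℤ) ∣ NumberField.discr L := by
    intro hdvd
    apply hpT.2
    rw [Nat.mem_primeFactors]
    exact ⟨hp, Int.natCast_dvd.mp hdvd, Int.natAbs_ne_zero.mpr (NumberField.discr_ne_zero L)⟩
  refine ⟨hp, hpT.1, fun A hA φ hφ => ?_⟩
  haveI := hQ
  exact Wrapper.restrict_mem_of_isArithFrobAt L B hB hp hd Q hpQ hσB hσ A hA φ hφ

end Fermat.Agent.DS.ChebDens
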