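/-
PROGRAMME III (S48, Deligne–Serre), block III/CHEB-DENS (owner helper15): THE RESULT.
`frobSumGe : FrobSumGe` — the one-sided density form of Chebotarev's theorem over `ℚ`, in Prelude
vocabulary (finding #1966), assembled from
(MAIN) `frobSumGeTC` (helper15; crossing (PER), (D1) helper29, (COMB) + S-b count helper16),
(W1) `frobSumGeNF_of_TC` (helper29) and (W2) `frobSumGe_of_nf` (helper21).
-/
import Fermat.Agent.DS.ChebDens.Main
import Fermat.Agent.DS.ChebDens.AdjoinI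
import Fermat.Agent.DS.ChebDens.Wrapper

set_option autoImplicit false

namespace Fermat.Agent.DS.ChebDens

/-- One-sided density Chebotarev over `ℚ`, number-field form. -/
theorem frobSumGeNF : FrobSumGeNF := frobSumGeNF_of_TC frobSumGeTC

/-- One-sided density Chebotarev over `ℚ`, Prelude vocabulary. -/
theorem frobSumGe : FrobSumGe := frobSumGe_of_nf frobSumGeNF

/-- **One-sided density Chebotarev over `ℚ`** (the literal of finding #1966): for a finite Galois
`L / ℚ` inside `Qb`, a conjugation-stable `B ⊆ Gal(L/ℚ)`, `δ > 0` and a finite set `T` of primes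
there is `K₀` such that for every `s ∈ (1, 2]` there is a finite set `F` of primes outside `T`, all
of whose Frobenius elements restrict into `B`, with
`(|B| / |Gal(L/ℚ)| - δ) log (1/(s-1)) - K₀ ≤ ∑_{p ∈ F} p^{-s}`. -/
theorem exists_frob_sum_ge (L : IntermediateField ℚ (AlgebraicClosure ℚ)) [FiniteDimensional ℚ L]
    [IsGalois ℚ L] (B : Set (L ≃ₐ[ℚ] L)) (hB : ∀ g h : L ≃ₐ[ℚ] L, h ∈ B → g * h * g⁻¹ ∈ B)
    {δ : ℝ} (hδ : 0 < δ) (T : Finset ℕ) :
    ∃ K₀ : ℝ, ∀ s : ℝ, 1 < s → s ≤ 2 → ∃ F : Finset ℕ,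
      (∀ p ∈ F, p.Prime ∧ p ∉ T ∧
        ∀ A : ValuationSubring (AlgebraicClosure ℚ), A.LiesOverPrime p →
          ∀ φ : AlgebraicClosure ℚ ≃ₐ[ℚ] AlgebraicClosure ℚ, A.IsFrobeniusAt φ p →
            AlgEquiv.restrictNormalHom L φ ∈ B) ∧
      ((Nat.card B : ℝ) / Nat.card (L ≃ₐ[ℚ] L) - δ) * Real.log (1 / (s - 1)) - K₀ ≤
        ∑ p ∈ F, 1 / (p : ℝ) ^ s :=
  frobSumGe L B hB δ hδ T

end Fermat.Agent.DS.ChebDens
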