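/-
PROGRAMME III (S48, Deligne–Serre), block III/CHEB-DENS (owner helper15): the kernel `ChebDens` of
helper4's skeleton (`DS/S48Skeleton.lean`) is `frobSumGe`.
-/
import Fermat.Agent.DS.ChebDens.Final
import Fermat.Agent.DS.S48Skeleton

set_option autoImplicit false

namespace Fermat.Agent.DS.ChebDens

/-- The skeleton's kernel **CHEB-DENS**. -/
theorem chebDens : Fermat.Agent.DS.S48Skeleton.ChebDens := frobSumGe

end Fermat.Agent.DS.ChebDens
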