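import Mathlib

/-!
# Programme III, kernel CHEB-DENS: the counting inequality "S-b"

`E / ℚ` a finite Galois extension of number fields, `G = Gal(E/ℚ)`.  For the one-sided density form
of Chebotarev's theorem one has, for finitely many `σ ∈ G`, finite sets `W σ` of primes `Q` of `E`
at which `σ` is an arithmetic Frobenius, and wants to bound the weighted number of these primes by
the weighted number of the rational primes below them.  The only input is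

  `∑_{Q ∣ p} ord (Frob_Q) ≤ ∑_{Q ∣ p} #Stab(Q) = #G`

(the Galois group permutes the primes over `p` transitively and `⟨Frob_Q⟩ ⊆ Stab(Q)`): no
centralisers, no double cosets, no unramifiedness.

* `sum_orderOf_le_card` : `∑ i ∈ I, orderOf (σ i) ≤ #G` for a family of pairwise distinct primes
  `Q i ∋ p` with `σ i` an arithmetic Frobenius at `Q i`.
* `sum_orderOf_mul_sum_le` : the regrouped inequality
  `∑ σ ∈ 𝓑, orderOf σ * ∑ Q ∈ W σ, w (pr Q) ≤ #G * ∑ p ∈ F, w p`.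
* `sum_orderOf_mul_sum_le_of_not_dvd_discr` : the same, the disjointness of the `W σ` being deduced
  from the uniqueness of the Frobenius at the primes not dividing the discriminant.
-/

set_option autoImplicit false
set_option linter.unusedSectionVars false

open scoped NumberField Pointwise

namespace Fermat.Agent.DS.ChebDens.SumFrob

variable {E : Type*} [Field E] [NumberField E]

/-- A prime of `𝓞 E` containing the rational prime `p` lies over `(p)`. -/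
theorem under_eq_span_of_natCast_mem {p : ℕ} (hp : p.Prime) (Q : Ideal (𝓞 E)) [hQ : Q.IsPrime]
    (hpQ : (p : 𝓞 E) ∈ Q) : Q.under ℤ = Ideal.span {(p : ℤ)} := by
  have hmax : (Ideal.span {(p : ℤ)}).IsMaximal :=
    PrincipalIdealRing.isMaximal_of_irreducible (Nat.prime_iff_prime_int.mp hp).irreducible
  have hle : Ideal.span {(p : ℤ)} ≤ Q.under ℤ := by
    rw [Ideal.span_singleton_le_iff_mem, Ideal.under_def, Ideal.mem_comap]
    simpa using hpQ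
  have hne : Q.under ℤ ≠ ⊤ := Ideal.IsPrime.ne_top inferInstance
  exact (hmax.eq_of_le hne hle).symm

/-- A prime ideal of `𝓞 E` contains at most one rational prime. -/
theorem eq_of_natCast_mem {p q : ℕ} (hp : p.Prime) (hq : q.Prime) (Q : Ideal (𝓞 E)) [hQ : Q.IsPrime]
    (hpQ : (p : 𝓞 E) ∈ Q) (hqQ : (q : 𝓞 E) ∈ Q) : p = q := by
  have h := (under_eq_span_of_natCast_mem hp Q hpQ).symm.trans
    (under_eq_span_of_natCast_mem hq Q hqQ)
  rw [Ideal.span_singleton_eq_span_singleton] at h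
  have h2 : (p : ℤ).natAbs = (q : ℤ).natAbs := Int.associated_iff_natAbs.mp h
  simpa using h2

variable [IsGalois ℚ E]

/-- **S-b, local form.**  Let `Q i` (`i ∈ I`) be pairwise distinct primes of `E` containing the
rational prime `p`, and `σ i` an arithmetic Frobenius at `Q i`.  Then `∑ orderOf (σ i) ≤ #Gal(E/ℚ)`.
(No ramification hypothesis.) -/
theorem sum_orderOf_le_card {p : ℕ} (hp : p.Prime) {ι : Type*} (I : Finset ι)
    (σ : ι → (E ≃ₐ[ℚ] E)) (Q : ι → Ideal (𝓞 E))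
    (hQ : ∀ i ∈ I, (Q i).IsPrime ∧ (p : 𝓞 E) ∈ Q i ∧ IsArithFrobAt ℤ (σ i) (Q i))
    (hinj : Set.InjOn Q I) :
    ∑ i ∈ I, orderOf (σ i) ≤ Nat.card (E ≃ₐ[ℚ] E) := by
  classical
  rcases I.eq_empty_or_nonempty with rfl | ⟨i₀, hi₀⟩
  · simp
  -- transitivity of the Galois action on the primes over `p`
  have hprime₀ : (Q i₀).IsPrime := (hQ i₀ hi₀).1
  have htrans : ∀ i ∈ I, ∃ h : E ≃ₐ[ℚ] E, Q i = h • Q i₀ := by
    intro i hi
    have hprime : (Q i).IsPrime := (hQ i hi).1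
    apply Algebra.IsInvariant.exists_smul_of_under_eq ℤ (𝓞 E) (E ≃ₐ[ℚ] E)
    rw [under_eq_span_of_natCast_mem hp _ (hQ i₀ hi₀).2.1,
      under_eq_span_of_natCast_mem hp _ (hQ i hi).2.1]
  choose! h hh using htrans
  -- the powers of `σ i` fix `Q i`
  have hstab : ∀ i ∈ I, ∀ g ∈ Subgroup.zpowers (σ i), g • Q i = Q i := by
    intro i hi g hg
    have hprime : (Q i).IsPrime := (hQ i hi).1
    have h1 : σ i ∈ MulAction.stabilizer (E ≃ₐ[ℚ] E) (Q i) := (hQ i hi).2.2.mem_stabilizer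
    have h2 : Subgroup.zpowers (σ i) ≤ MulAction.stabilizer (E ≃ₐ[ℚ] E) (Q i) := by
      rw [Subgroup.zpowers_le]
      exact h1
    exact MulAction.mem_stabilizer_iff.mp (h2 hg)
  -- the injection `(i, g) ↦ g * h i`
  let f : (Σ i : {i // i ∈ I}, Subgroup.zpowers (σ i)) → (E ≃ₐ[ℚ] E) :=
    fun x => (x.2 : E ≃ₐ[ℚ] E) * h x.1
  have hf : Function.Injective f := by
    rintro ⟨⟨i, hi⟩, ⟨g, hg⟩⟩ ⟨⟨j, hj⟩, ⟨g', hg'⟩⟩ hfx
    have hfx' : g * h i = g' * h j := hfx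
    have e1 : (g * h i) • Q i₀ = Q i := by rw [mul_smul, ← hh i hi, hstab i hi g hg]
    have e2 : (g' * h j) • Q i₀ = Q j := by rw [mul_smul, ← hh j hj, hstab j hj g' hg']
    have hij : i = j := hinj hi hj (by rw [← e1, ← e2, hfx'])
    subst hij
    have hgg : g = g' := mul_right_cancel hfx'
    subst hgg
    rfl
  have hcard := Nat.card_le_card_of_injective f hf
  rw [Nat.card_sigma] at hcard
  simp only [Nat.card_zpowers] at hcard
  rwa [Finset.sum_coe_sort I (fun i => orderOf (σ i))] at hcard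

/-- **S-b, regrouped form.**  `𝓑` a finite set of elements of `Gal(E/ℚ)`; for `σ ∈ 𝓑` a finite set
`W σ` of primes `Q` of `E` at which `σ` is an arithmetic Frobenius, `pr Q ∈ F` the rational prime
below `Q`; the `W σ` pairwise disjoint; `w ≥ 0` any weight.  Then
`∑ σ ∈ 𝓑, orderOf σ * ∑ Q ∈ W σ, w (pr Q) ≤ #Gal(E/ℚ) * ∑ p ∈ F, w p`. -/
theorem sum_orderOf_mul_sum_le (w : ℕ → ℝ) (hw : ∀ p, 0 ≤ w p) (𝓑 : Finset (E ≃ₐ[ℚ] E))
    (W : (E ≃ₐ[ℚ] E) → Finset (Ideal (𝓞 E))) (pr : Ideal (𝓞 E) → ℕ) (F : Finset ℕ)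
    (hW : ∀ σ ∈ 𝓑, ∀ Q ∈ W σ, Q.IsPrime ∧ (pr Q).Prime ∧ ((pr Q : ℕ) : 𝓞 E) ∈ Q ∧
      IsArithFrobAt ℤ σ Q ∧ pr Q ∈ F)
    (hdisj : ∀ σ ∈ 𝓑, ∀ σ' ∈ 𝓑, σ ≠ σ' → Disjoint (W σ) (W σ')) :
    ∑ σ ∈ 𝓑, (orderOf σ : ℝ) * ∑ Q ∈ W σ, w (pr Q) ≤
      (Nat.card (E ≃ₐ[ℚ] E) : ℝ) * ∑ p ∈ F, w p := by
  classical
  set 𝒲 : Finset (Σ _ : E ≃ₐ[ℚ] E, Ideal (𝓞 E)) := 𝓑.sigma W with h𝒲
  have hmem : ∀ x ∈ 𝒲, x.1 ∈ 𝓑 ∧ x.2 ∈ W x.1 := fun x hx => Finset.mem_sigma.mp hx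
  -- rewrite the left hand side as a sum over pairs
  have hL : ∑ σ ∈ 𝓑, (orderOf σ : ℝ) * ∑ Q ∈ W σ, w (pr Q) =
      ∑ x ∈ 𝒲, (orderOf x.1 : ℝ) * w (pr x.2) := by
    rw [h𝒲, Finset.sum_sigma]
    exact Finset.sum_congr rfl fun σ _ => Finset.mul_sum _ _ _
  -- group the pairs according to the rational prime below
  have hmaps : ∀ x ∈ 𝒲, pr x.2 ∈ F := fun x hx =>
    (hW x.1 (hmem x hx).1 x.2 (hmem x hx).2).2.2.2.2
  rw [hL, ← Finset.sum_fiberwise_of_maps_to hmaps, Finset.mul_sum]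
  refine Finset.sum_le_sum fun p _ => ?_
  -- the contribution of one rational prime
  have h1 : ∑ x ∈ 𝒲 with pr x.2 = p, (orderOf x.1 : ℝ) * w (pr x.2) =
      ((∑ x ∈ 𝒲 with pr x.2 = p, orderOf x.1 : ℕ) : ℝ) * w p := by
    rw [Nat.cast_sum, Finset.sum_mul]
    refine Finset.sum_congr rfl fun x hx => ?_
    rw [(Finset.mem_filter.mp hx).2]
  rw [h1]
  refine mul_le_mul_of_nonneg_right ?_ (hw p)
  rcases (𝒲.filter fun x => pr x.2 = p).eq_empty_or_nonempty with he | ⟨x₀, hx₀⟩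
  · rw [he, Finset.sum_empty, Nat.cast_zero]
    exact Nat.cast_nonneg _
  have hx₀' := Finset.mem_filter.mp hx₀
  have hp : p.Prime := by
    rw [← hx₀'.2]
    exact (hW x₀.1 (hmem x₀ hx₀'.1).1 x₀.2 (hmem x₀ hx₀'.1).2).2.1
  have key := sum_orderOf_le_card (E := E) hp (𝒲.filter fun x => pr x.2 = p)
    (fun x => x.1) (fun x => x.2) ?_ ?_
  · exact_mod_cast key
  · intro x hx
    have hx' := Finset.mem_filter.mp hx
    obtain ⟨hQp, -, hprQ, hfrob, -⟩ := hW x.1 (hmem x hx'.1).1 x.2 (hmem x hx'.1).2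
    exact ⟨hQp, hx'.2 ▸ hprQ, hfrob⟩
  · intro x hx y hy hxy
    have hx' := Finset.mem_filter.mp (Finset.mem_coe.mp hx)
    have hy' := Finset.mem_filter.mp (Finset.mem_coe.mp hy)
    have hxy' : x.2 = y.2 := hxy
    have h1 : x.1 = y.1 := by
      by_contra hne
      have hd := hdisj x.1 (hmem x hx'.1).1 y.1 (hmem y hy'.1).1 hne
      exact (Finset.disjoint_left.mp hd (hmem x hx'.1).2) (hxy' ▸ (hmem y hy'.1).2)
    exact Sigma.ext h1 (heq_of_eq hxy')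

/-- Uniqueness of the arithmetic Frobenius at a prime of `E` over a rational prime not dividing the
discriminant. -/
theorem eq_of_isArithFrobAt_of_not_dvd_discr {p : ℕ} (hp : p.Prime) {Q : Ideal (𝓞 E)}
    [hQ : Q.IsPrime] (hpQ : (p : 𝓞 E) ∈ Q) (hd : ¬ (p : ℤ) ∣ NumberField.discr E)
    {σ σ' : E ≃ₐ[ℚ] E} (hσ : IsArithFrobAt ℤ σ Q) (hσ' : IsArithFrobAt ℤ σ' Q) : σ = σ' := by
  have hQ0 : Q ≠ ⊥ := by
    intro h
    rw [h, Ideal.mem_bot] at hpQ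
    exact (Nat.cast_ne_zero.mpr hp.ne_zero : (p : 𝓞 E) ≠ 0) hpQ
  have hmax : Q.IsMaximal := Ideal.IsPrime.isMaximal hQ hQ0
  have hover : Q.LiesOver (Ideal.span {(p : ℤ)}) :=
    ⟨(under_eq_span_of_natCast_mem hp Q hpQ).symm⟩
  have : Algebra.IsUnramifiedAt ℤ Q :=
    (NumberField.not_dvd_discr_iff_forall_liesOver E (𝓞 E) (Nat.prime_iff_prime_int.mp hp)).mp hd
      Q hmax hover
  have h2 := AlgHom.IsArithFrobAt.eq_of_isUnramifiedAt hσ hσ'
    (fun x hx => mem_nonZeroDivisors_of_ne_zero (fun h => hx (h ▸ Ideal.zero_mem _)))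
  ext y
  obtain ⟨a, b, -, rfl⟩ := IsFractionRing.div_surjective (A := 𝓞 E) y
  have ha : σ (a : E) = σ' (a : E) := congrArg (fun z : 𝓞 E => (z : E)) (DFunLike.congr_fun h2 a)
  have hb : σ (b : E) = σ' (b : E) := congrArg (fun z : 𝓞 E => (z : E)) (DFunLike.congr_fun h2 b)
  rw [map_div₀, map_div₀, ha, hb]

/-- **S-b, unramified form**: `sum_orderOf_mul_sum_le` with the disjointness of the `W σ` deduced
from `pr Q ∤ disc E`. -/
theorem sum_orderOf_mul_sum_le_of_not_dvd_discr (w : ℕ → ℝ) (hw : ∀ p, 0 ≤ w p)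
    (𝓑 : Finset (E ≃ₐ[ℚ] E)) (W : (E ≃ₐ[ℚ] E) → Finset (Ideal (𝓞 E))) (pr : Ideal (𝓞 E) → ℕ)
    (F : Finset ℕ)
    (hW : ∀ σ ∈ 𝓑, ∀ Q ∈ W σ, Q.IsPrime ∧ (pr Q).Prime ∧ ((pr Q : ℕ) : 𝓞 E) ∈ Q ∧
      IsArithFrobAt ℤ σ Q ∧ pr Q ∈ F)
    (hunr : ∀ σ ∈ 𝓑, ∀ Q ∈ W σ, ¬ ((pr Q : ℕ) : ℤ) ∣ NumberField.discr E) :
    ∑ σ ∈ 𝓑, (orderOf σ : ℝ) * ∑ Q ∈ W σ, w (pr Q) ≤
      (Nat.card (E ≃ₐ[ℚ] E) : ℝ) * ∑ p ∈ F, w p := by
  refine sum_orderOf_mul_sum_le w hw 𝓑 W pr F hW fun σ hσ σ' hσ' hne => ?_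
  rw [Finset.disjoint_left]
  intro Q hQ hQ'
  obtain ⟨hQp, hprime, hmemQ, hfrob, -⟩ := hW σ hσ Q hQ
  obtain ⟨-, -, -, hfrob', -⟩ := hW σ' hσ' Q hQ'
  exact hne (eq_of_isArithFrobAt_of_not_dvd_discr hprime hmemQ (hunr σ hσ Q hQ) hfrob hfrob')

end Fermat.Agent.DS.ChebDens.SumFrob
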